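import Mathlib

/-!
# S26 / P15 CUBE3 — leaf L8 AXIS (helper916)

Every irreducible closed subset with more than one point of a product of two complete curves
over an algebraically closed field meets one of the two axes.  Scheme-level statement with the
"dimension one" property of the factors as an explicit topological hypothesis.
-/

set_option autoImplicit false

namespace Fermat.Agent.S26.CUBE3

open CategoryTheory CategoryTheory.Limits AlgebraicGeometry

universe u

variable {K : Type u} [Field K] [IsAlgClosed K]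
variable {C2 C3 : Scheme.{u}} (f2 : C2 ⟶ Spec (CommRingCat.of K))
  (f3 : C3 ⟶ Spec (CommRingCat.of K))

/-- the slice inclusion `C3 → C2 × C3`, `z ↦ (y, z)`, for a closed point `y` of `C2`. -/
noncomputable def axisSlice [LocallyOfFiniteType f2] (y : C2) (hy : IsClosed {y}) :
    C3 ⟶ pullback f2 f3 :=
  pullback.lift (f3 ≫ pointOfClosedPoint f2 y hy) (𝟙 C3) (by simp)

theorem axisSlice_isPullback [LocallyOfFiniteType f2] (y : C2) (hy : IsClosed {y}) :
    IsPullback (axisSlice f2 f3 y hy) f3 (pullback.fst f2 f3) (pointOfClosedPoint f2 y hy) := by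
  have t : IsPullback (pullback.snd f2 f3) (pullback.fst f2 f3) f3 f2 :=
    (IsPullback.of_hasPullback f2 f3).flip
  have s : IsPullback (axisSlice f2 f3 y hy ≫ pullback.snd f2 f3) f3 f3
      (pointOfClosedPoint f2 y hy ≫ f2) := by
    have e1 : axisSlice f2 f3 y hy ≫ pullback.snd f2 f3 = 𝟙 C3 := pullback.lift_snd _ _ _
    have e2 : pointOfClosedPoint f2 y hy ≫ f2 = 𝟙 _ := pointOfClosedPoint_comp f2 y hy
    rw [e1, e2]
    exact IsPullback.id_horiz f3
  exact IsPullback.of_right s (pullback.lift_fst _ _ _) t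

/-- a point of the product over a closed point `y` of `C2` is determined by its second coordinate. -/
theorem axis_slice_injective [LocallyOfFiniteType f2] (y : C2) (hy : IsClosed {y})
    (p q : ↑(pullback f2 f3)) (hp : pullback.fst f2 f3 p = y) (hq : pullback.fst f2 f3 q = y)
    (hpq : pullback.snd f2 f3 p = pullback.snd f2 f3 q) : p = q := by
  have key : ∀ r : ↑(pullback f2 f3), pullback.fst f2 f3 r = y →
      r = axisSlice f2 f3 y hy (pullback.snd f2 f3 r) := by
    intro r hr
    obtain ⟨c, hc1, -⟩ := Scheme.exists_preimage_of_isPullback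
      (axisSlice_isPullback f2 f3 y hy) r (IsLocalRing.closedPoint K)
      (by rw [hr]; exact (pointOfClosedPoint_apply f2 y hy _).symm)
    have hc2 : pullback.snd f2 f3 r = c := by
      rw [← hc1, ← Scheme.Hom.comp_apply]
      have e1 : axisSlice f2 f3 y hy ≫ pullback.snd f2 f3 = 𝟙 C3 := pullback.lift_snd _ _ _
      rw [e1]
      rfl
    rw [hc2, hc1]
  rw [key p hp, key q hq, hpq]

/-- **AXIS.** -/
theorem axis_meet [IsProper f2] [IsProper f3]
    (h2 : ∀ W : Set C2, IsClosed W → IsIrreducible W → W = Set.univ ∨ ∃ y, W = {y})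
    (h3 : ∀ W : Set C3, IsClosed W → IsIrreducible W → W = Set.univ ∨ ∃ z, W = {z})
    (y0 : C2) (z0 : C3) (Z : Set ↑(pullback f2 f3)) (hZc : IsClosed Z) (hZi : IsIrreducible Z)
    (hZ2 : Z.Nontrivial) :
    ∃ p ∈ Z, pullback.fst f2 f3 p = y0 ∨ pullback.snd f2 f3 p = z0 := by
  have hc1 : IsClosed (pullback.fst f2 f3 '' Z) := (pullback.fst f2 f3).isClosedMap Z hZc
  have hi1 : IsIrreducible (pullback.fst f2 f3 '' Z) :=
    hZi.image _ (pullback.fst f2 f3).continuous.continuousOn
  have hc2 : IsClosed (pullback.snd f2 f3 '' Z) := (pullback.snd f2 f3).isClosedMap Z hZc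
  have hi2 : IsIrreducible (pullback.snd f2 f3 '' Z) :=
    hZi.image _ (pullback.snd f2 f3).continuous.continuousOn
  rcases h2 _ hc1 hi1 with h | ⟨y, hy⟩
  · have : y0 ∈ pullback.fst f2 f3 '' Z := by rw [h]; exact Set.mem_univ _
    obtain ⟨p, hp, hp0⟩ := this
    exact ⟨p, hp, Or.inl hp0⟩
  rcases h3 _ hc2 hi2 with h | ⟨z, hz⟩
  · have : z0 ∈ pullback.snd f2 f3 '' Z := by rw [h]; exact Set.mem_univ _
    obtain ⟨p, hp, hp0⟩ := this
    exact ⟨p, hp, Or.inr hp0⟩
  exfalso
  obtain ⟨p, hp, q, hq, hpq⟩ := hZ2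
  have hyc : IsClosed ({y} : Set C2) := hy ▸ hc1
  have e1 : ∀ r ∈ Z, pullback.fst f2 f3 r = y := fun r hr => by
    have : pullback.fst f2 f3 r ∈ pullback.fst f2 f3 '' Z := ⟨r, hr, rfl⟩
    rw [hy] at this
    exact this
  have e2 : ∀ r ∈ Z, pullback.snd f2 f3 r = z := fun r hr => by
    have : pullback.snd f2 f3 r ∈ pullback.snd f2 f3 '' Z := ⟨r, hr, rfl⟩
    rw [hz] at this
    exact this
  exact hpq (axis_slice_injective f2 f3 y hyc p q (e1 p hp) (e1 q hq)
    ((e2 p hp).trans (e2 q hq).symm))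

end Fermat.Agent.S26.CUBE3
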