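import Fermat.Agent.S26.CUBE3.AxisPts
import Fermat.Agent.S26.CUBE3.Axis

/-!
# S26 / P15 CUBE3: (AX) and (S3) in the frozen vocabulary with `K`-points (helper2963)

* `isClosed_ptOf`, `exists_ptOf_eq`, `ptOf_injective`: `K`-points = closed points
  (Mathlib `pointEquivClosedPoint`), for `Pts` / `ptOf` of `AVDefs.lean`.
* `exists_axis_pt`: **(AX)** with `K`-points.  `Y`, `Z` proper over `K` and curve-like (every
  irreducible closed subset is everything or a point).  Every non-closed point `ζ` of `Y × Z`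
  specialises to `ptOf t` for a `K`-point `t = (y₀, z)` or `t = (y, z₀)`.
* `exists_between_prod`: dimension `≥ 2` at the closed points of `Y × Z` (generic point of the
  fibre `{y} × Z`), from "the generic points of `Y`, `Z` are not closed".
* `bp_empty_axes`, `bp_empty_axes'`: **(S3)**: `j : Y × Z ⟶ X`, `Yp` effective Cartier on `X`; if
  `j⁻¹(Supp Yp)` contains no `K`-point of the two axes, it is empty.  (Uses `Axis.lean` of
  helper916 verbatim and `BP.lean`; sorry-free, no frozen export is used.)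
-/

set_option autoImplicit false

universe u

open CategoryTheory CategoryTheory.Limits AlgebraicGeometry NeronModelInfra GoodReductionJacobian

namespace Fermat.Agent.S26.CUBE3.H2963

open Fermat.Agent.S26 Fermat.Agent.S26.CUBE3

noncomputable section

variable {K : Type u} [Field K] [IsAlgClosed K]

section Points

variable {X : Scheme.{u}} (sX : X ⟶ Spec (CommRingCat.of K)) [LocallyOfFiniteType sX]

/-- The point underlying a `K`-point is closed. -/
theorem isClosed_ptOf (a : Pts sX) : IsClosed ({ptOf a} : Set X) :=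
  (pointEquivClosedPoint sX ⟨a.1, a.2⟩).2

/-- Every closed point underlies a `K`-point. -/
theorem exists_ptOf_eq (x : X) (hx : IsClosed ({x} : Set X)) : ∃ a : Pts sX, ptOf a = x :=
  ⟨⟨pointOfClosedPoint sX x hx, pointOfClosedPoint_comp sX x hx⟩,
    pointOfClosedPoint_apply sX x hx _⟩

/-- A `K`-point is determined by its underlying point. -/
theorem ptOf_injective {a b : Pts sX} (h : ptOf a = ptOf b) : a = b :=
  Subtype.ext (ext_of_apply_closedPoint_eq sX a.2 b.2 h)

end Points

section Axes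

variable {Y Z : Scheme.{u}} (sY : Y ⟶ Spec (CommRingCat.of K)) (sZ : Z ⟶ Spec (CommRingCat.of K))

omit [IsAlgClosed K] in
theorem ptOf_fstPt (t : Pts (prodS sY sZ)) :
    ptOf (fstPt t) = (pullback.fst sY sZ).base (ptOf t) := rfl

omit [IsAlgClosed K] in
theorem ptOf_sndPt (t : Pts (prodS sY sZ)) :
    ptOf (sndPt t) = (pullback.snd sY sZ).base (ptOf t) := rfl

/-- **(AX)** with `K`-points: every non-closed point of `Y × Z` specialises to a `K`-point on
one of the two axes. -/
theorem exists_axis_pt [IsProper sY] [IsProper sZ]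
    (h2 : ∀ W : Set Y, IsClosed W → IsIrreducible W → W = Set.univ ∨ ∃ y, W = {y})
    (h3 : ∀ W : Set Z, IsClosed W → IsIrreducible W → W = Set.univ ∨ ∃ z, W = {z})
    (y₀ : Pts sY) (z₀ : Pts sZ) (ζ t' : ↥(pullback sY sZ)) (hζ : ζ ⤳ t') (hne : ζ ≠ t') :
    ∃ t : Pts (prodS sY sZ), ζ ⤳ ptOf t ∧
      ((∃ z : Pts sZ, t = pairPt y₀ z) ∨ (∃ y : Pts sY, t = pairPt y z₀)) := by
  have hft : LocallyOfFiniteType (prodS sY sZ) := by
    unfold prodS; infer_instance
  have hcs : CompactSpace ↥(pullback sY sZ) :=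
    QuasiCompact.compactSpace_of_compactSpace (pullback.fst sY sZ ≫ sY)
  have hirr : IsIrreducible (closure ({ζ} : Set ↥(pullback sY sZ))) :=
    isIrreducible_singleton.closure
  have hnt : (closure ({ζ} : Set ↥(pullback sY sZ))).Nontrivial :=
    ⟨ζ, subset_closure (Set.mem_singleton ζ), t', specializes_iff_mem_closure.mp hζ, hne⟩
  obtain ⟨p, hp, hpax⟩ := axis_meet sY sZ h2 h3 (ptOf y₀) (ptOf z₀) _ isClosed_closure hirr hnt
  rcases hpax with hp1 | hp2
  · -- a closed point of the closed set `Z ∩ fst⁻¹(y₀)`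
    have hcl : IsClosed (closure ({ζ} : Set ↥(pullback sY sZ)) ∩
        (pullback.fst sY sZ).base ⁻¹' {ptOf y₀}) :=
      isClosed_closure.inter ((isClosed_ptOf sY y₀).preimage (pullback.fst sY sZ).continuous)
    obtain ⟨γ, ⟨hγZ, hγy⟩, hγc⟩ := hcl.exists_closed_singleton ⟨p, hp, hp1⟩
    obtain ⟨t, ht⟩ := exists_ptOf_eq (prodS sY sZ) γ hγc
    refine ⟨t, ?_, Or.inl ⟨sndPt t, ?_⟩⟩
    · rw [ht]; exact specializes_iff_mem_closure.mpr hγZ
    · have h1 : fstPt t = y₀ := by
        apply ptOf_injective sY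
        rw [ptOf_fstPt, ht]; exact hγy
      have h2' := eq_pairPt t
      rw [h1] at h2'
      exact h2'
  · have hcl : IsClosed (closure ({ζ} : Set ↥(pullback sY sZ)) ∩
        (pullback.snd sY sZ).base ⁻¹' {ptOf z₀}) :=
      isClosed_closure.inter ((isClosed_ptOf sZ z₀).preimage (pullback.snd sY sZ).continuous)
    obtain ⟨γ, ⟨hγZ, hγz⟩, hγc⟩ := hcl.exists_closed_singleton ⟨p, hp, hp2⟩
    obtain ⟨t, ht⟩ := exists_ptOf_eq (prodS sY sZ) γ hγc
    refine ⟨t, ?_, Or.inr ⟨fstPt t, ?_⟩⟩
    · rw [ht]; exact specializes_iff_mem_closure.mpr hγZ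
    · have h1 : sndPt t = z₀ := by
        apply ptOf_injective sZ
        rw [ptOf_sndPt, ht]; exact hγz
      have h2' := eq_pairPt t
      rw [h1] at h2'
      exact h2'

omit [IsAlgClosed K] in
/-- The structure morphism of a nonempty `K`-scheme is surjective. -/
theorem surjective_of_nonempty {X : Scheme.{u}} (sX : X ⟶ Spec (CommRingCat.of K)) [Nonempty X] :
    Surjective sX := by
  rw [surjective_iff]
  intro b
  obtain ⟨x⟩ := ‹Nonempty X›
  exact ⟨x, Subsingleton.elim _ _⟩

/-- A surjective morphism of irreducible schemes maps the generic point to the generic point. -/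
theorem base_genericPoint_of_surjective {X X' : Scheme.{u}} [IrreducibleSpace X]
    [IrreducibleSpace X'] (φ : X ⟶ X') [Surjective φ] :
    φ.base (genericPoint X) = genericPoint X' := by
  have h := (genericPoint_spec X).image φ.continuous
  rw [Set.image_univ, φ.surjective.range_eq, closure_univ] at h
  exact h.eq (genericPoint_spec X')

/-- **Dimension `≥ 2` of a product of two curves** (what `bp_empty` needs): if the generic points
of the integral `K`-schemes `Y`, `Z` are not closed, every closed point `t` of `Y × Z` has a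
proper generisation different from the generic point (the generic point of the fibre
`{y} × Z` through `t`). -/
theorem exists_between_prod [LocallyOfFiniteType sY] [LocallyOfFiniteType sZ]
    [IsIntegral Y] [IsIntegral Z] [IsIntegral (pullback sY sZ)]
    (hY : ¬ IsClosed ({genericPoint Y} : Set Y)) (hZ : ¬ IsClosed ({genericPoint Z} : Set Z))
    (t : ↥(pullback sY sZ)) (ht : IsClosed ({t} : Set ↥(pullback sY sZ))) :
    ∃ ξ : ↥(pullback sY sZ), ξ ⤳ t ∧ ξ ≠ t ∧ ξ ≠ genericPoint ↥(pullback sY sZ) := by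
  have hft : LocallyOfFiniteType (prodS sY sZ) := by
    unfold prodS; infer_instance
  obtain ⟨s, hs⟩ := exists_ptOf_eq (prodS sY sZ) t ht
  have hpair := eq_pairPt s
  set y := fstPt s with hy
  set z := sndPt s with hz
  have hsl : (sliceR y sZ).base (ptOf z) = t := by
    rw [← hs, hpair]
    change (z.1 ≫ sliceR y sZ).base (IsLocalRing.closedPoint K) = _
    rw [← pairPt_eq_comp_sliceR]
    rfl
  refine ⟨(sliceR y sZ).base (genericPoint Z), ?_, ?_, ?_⟩
  · rw [← hsl]
    exact ((genericPoint_spec Z).specializes trivial).map (sliceR y sZ).continuous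
  · intro h
    apply hZ
    have h1 := congrArg (pullback.snd sY sZ).base h
    rw [← hsl] at h1
    have e : ∀ a : Z, (pullback.snd sY sZ).base ((sliceR y sZ).base a) = a := by
      intro a
      change (sliceR y sZ ≫ pullback.snd sY sZ).base a = a
      rw [sliceR_snd]; rfl
    rw [e, e] at h1
    rw [h1]
    exact isClosed_ptOf sZ z
  · intro h
    apply hY
    have hsurj : Surjective sZ := surjective_of_nonempty sZ
    have h1 := congrArg (pullback.fst sY sZ).base h
    rw [base_genericPoint_of_surjective (pullback.fst sY sZ)] at h1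
    have e : (pullback.fst sY sZ).base ((sliceR y sZ).base (genericPoint Z)) = ptOf y := by
      change (sliceR y sZ ≫ pullback.fst sY sZ).base (genericPoint Z) = _
      rw [sliceR_fst]
      change y.1.base (sZ.base (genericPoint Z)) = y.1.base (IsLocalRing.closedPoint K)
      exact congrArg _ (Subsingleton.elim _ _)
    rw [e] at h1
    rw [← h1]
    exact isClosed_ptOf sY y

/-- **(S3) of CUBE3 in the frozen vocabulary.**  `T = Y × Z` a product of two proper curve-like
`K`-schemes (`h2`, `h3`), integral, locally noetherian, of dimension `≥ 2` at closed points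
(`hdim`).  `j : T ⟶ X` any morphism, `Yp` an effective Cartier family on `X`.  If no `K`-point
`(y₀, z)` or `(y, z₀)` of the two axes is mapped into `Supp Yp`, then no point of `T` is. -/
theorem bp_empty_axes {X : Scheme.{u}} [IsIntegral X] [IsProper sY] [IsProper sZ]
    [IsIntegral (pullback sY sZ)] [IsLocallyNoetherian (pullback sY sZ)]
    (h2 : ∀ W : Set Y, IsClosed W → IsIrreducible W → W = Set.univ ∨ ∃ y, W = {y})
    (h3 : ∀ W : Set Z, IsClosed W → IsIrreducible W → W = Set.univ ∨ ∃ z, W = {z})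
    (hdim : ∀ t : ↥(pullback sY sZ), IsClosed ({t} : Set ↥(pullback sY sZ)) →
      ∃ ξ : ↥(pullback sY sZ), ξ ⤳ t ∧ ξ ≠ t ∧ ξ ≠ genericPoint ↥(pullback sY sZ))
    (y₀ : Pts sY) (z₀ : Pts sZ)
    (j : pullback sY sZ ⟶ X) (Yp : Fam X) (hYc : Yp.IsCartier) (hYe : Yp.IsEffective)
    (hL : ∀ z : Pts sZ, ¬ Yp.InSupp (j.base (ptOf (pairPt y₀ z))))
    (hR : ∀ y : Pts sY, ¬ Yp.InSupp (j.base (ptOf (pairPt y z₀))))
    (t : ↥(pullback sY sZ)) : ¬ Yp.InSupp (j.base t) := by
  have hcs : CompactSpace ↥(pullback sY sZ) :=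
    QuasiCompact.compactSpace_of_compactSpace (pullback.fst sY sZ ≫ sY)
  refine bp_empty j Yp hYc hYe
    {a | (∃ z : Pts sZ, a = ptOf (pairPt y₀ z)) ∨ (∃ y : Pts sY, a = ptOf (pairPt y z₀))}
    hdim ?_ ?_ t
  · intro ζ t' hζ hne
    obtain ⟨s, hs, hax⟩ := exists_axis_pt sY sZ h2 h3 y₀ z₀ ζ t' hζ hne
    refine ⟨ptOf s, ?_, hs⟩
    rcases hax with ⟨z, rfl⟩ | ⟨y, rfl⟩
    · exact Or.inl ⟨z, rfl⟩
    · exact Or.inr ⟨y, rfl⟩
  · rintro a (⟨z, rfl⟩ | ⟨y, rfl⟩)
    · exact hL z
    · exact hR y

/-- **(S3)**, with the dimension hypothesis discharged: `Y`, `Z` integral proper curve-like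
`K`-schemes whose generic points are not closed. -/
theorem bp_empty_axes' {X : Scheme.{u}} [IsIntegral X] [IsProper sY] [IsProper sZ]
    [IsIntegral Y] [IsIntegral Z]
    [IsIntegral (pullback sY sZ)] [IsLocallyNoetherian (pullback sY sZ)]
    (h2 : ∀ W : Set Y, IsClosed W → IsIrreducible W → W = Set.univ ∨ ∃ y, W = {y})
    (h3 : ∀ W : Set Z, IsClosed W → IsIrreducible W → W = Set.univ ∨ ∃ z, W = {z})
    (hY : ¬ IsClosed ({genericPoint Y} : Set Y)) (hZ : ¬ IsClosed ({genericPoint Z} : Set Z))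
    (y₀ : Pts sY) (z₀ : Pts sZ)
    (j : pullback sY sZ ⟶ X) (Yp : Fam X) (hYc : Yp.IsCartier) (hYe : Yp.IsEffective)
    (hL : ∀ z : Pts sZ, ¬ Yp.InSupp (j.base (ptOf (pairPt y₀ z))))
    (hR : ∀ y : Pts sY, ¬ Yp.InSupp (j.base (ptOf (pairPt y z₀))))
    (t : ↥(pullback sY sZ)) : ¬ Yp.InSupp (j.base t) :=
  bp_empty_axes sY sZ h2 h3 (exists_between_prod sY sZ hY hZ) y₀ z₀ j Yp hYc hYe hL hR t

end Axes

end

end Fermat.Agent.S26.CUBE3.H2963
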