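import Fermat.Agent.S26.CUBE3.Rigid

/-!
# S26 / P15 CUBE3, leaf L9 (BP), step (S3) of `notes/S26/P15_BOARD.md` (helper2963)

Language of `Fermat/Agent/S26/Defs.lean` (families of local equations).  No pull-back divisor is
needed: everything is done in the local rings.

* `exists_prime_ne_maximal`: Krull's principal ideal theorem in the form used here.
* `localRing_le_of_specializes`, `isUnitAt_of_specializes`, `isUnitAt_algebraMap_iff`,
  `algebraMap_stalk_injective`: local rings inside the function field.
* `inSupp_iff_of_specializes`, `inSupp_of_specializes`: the support of a Cartier family is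
  stable under specialisation, and can be tested with a local equation at a specialisation.
* `exists_specializes_inSupp`: **no isolated points**.  `j : T ⟶ X`, `Y` effective Cartier on `X`,
  `t ∈ j⁻¹(Supp Y)` a point with `dim O_{T,t} ≥ 2` (given by a point `ξ` strictly between the generic
  point and `t`).  Then `j⁻¹(Supp Y)` contains a point `ζ ≠ t` specialising to `t`.
* `bp_empty`: **(S3)**.  If moreover `T` is quasi-compact, every non-closed point of `T` specialises
  to a point of `Ax` (AXIS, leaf L8) and `j⁻¹(Supp Y)` misses `Ax` (NB, (S2)), then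
  `j⁻¹(Supp Y)` is empty.
-/

set_option autoImplicit false

universe u

open CategoryTheory AlgebraicGeometry

namespace Fermat.Agent.S26.CUBE3.H2963

/-- **Krull's principal ideal theorem**, in the form used for (S3): in a noetherian local domain
having a prime strictly between `0` and the maximal ideal, every non-unit lies in a prime
different from the maximal ideal. -/
theorem exists_prime_ne_maximal {R : Type*} [CommRing R] [IsDomain R] [IsNoetherianRing R]
    [IsLocalRing R] (q : Ideal R) [q.IsPrime] (hq0 : q ≠ ⊥)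
    (hqm : q ≠ IsLocalRing.maximalIdeal R) (g : R) (hg : ¬ IsUnit g) :
    ∃ p : Ideal R, p.IsPrime ∧ g ∈ p ∧ p ≠ IsLocalRing.maximalIdeal R := by
  have hgm : Ideal.span {g} ≤ IsLocalRing.maximalIdeal R := by
    rw [Ideal.span_le, Set.singleton_subset_iff]
    exact (IsLocalRing.mem_maximalIdeal g).mpr hg
  obtain ⟨p, hp, hpm⟩ := Ideal.exists_minimalPrimes_le hgm
  have hpp : p.IsPrime := hp.1.1
  refine ⟨p, hpp, hp.1.2 (Ideal.subset_span (Set.mem_singleton g)), ?_⟩
  intro hpe
  have h1 : p.height ≤ 1 :=
    Ideal.height_le_one_of_isPrincipal_of_mem_minimalPrimes (Ideal.span {g}) p hp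
  have hbq : (⊥ : Ideal R) < q := bot_lt_iff_ne_bot.mpr hq0
  have hqlt : q < IsLocalRing.maximalIdeal R :=
    lt_of_le_of_ne (IsLocalRing.le_maximalIdeal (Ideal.IsPrime.ne_top inferInstance)) hqm
  have h2 : (⊥ : Ideal R).height + 1 ≤ q.height :=
    Ideal.height_add_one_le_of_lt_of_isPrime hbq
  have h3 : q.height + 1 ≤ (IsLocalRing.maximalIdeal R).height :=
    Ideal.height_add_one_le_of_lt_of_isPrime hqlt
  rw [hpe] at h1
  have h4 : (1 : ℕ∞) + 1 ≤ 1 := by
    calc (1 : ℕ∞) + 1 ≤ q.height + 1 := by
          gcongr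
          calc (1 : ℕ∞) = 0 + 1 := by simp
            _ ≤ (⊥ : Ideal R).height + 1 := by gcongr; exact bot_le
            _ ≤ q.height := h2
      _ ≤ (IsLocalRing.maximalIdeal R).height := h3
      _ ≤ 1 := h1
  exact absurd h4 (by decide)

section LocalRings

variable {X : Scheme.{u}} [IsIntegral X]

/-- The maps `O_{X,x} → K(X)` are compatible with specialisation. -/
theorem algebraMap_stalkSpecializes {x' x : X} (h : x' ⤳ x) (a : X.presheaf.stalk x) :
    algebraMap (X.presheaf.stalk x') X.functionField (X.presheaf.stalkSpecializes h a) =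
      algebraMap (X.presheaf.stalk x) X.functionField a := by
  simp only [RingHom.algebraMap_toAlgebra]
  exact TopCat.Presheaf.stalkSpecializes_comp_apply X.presheaf
    ((genericPoint_spec X).specializes trivial) h a

/-- `O_{X,x} → K(X)` is injective. -/
theorem algebraMap_stalk_injective (x : X) :
    Function.Injective (algebraMap (X.presheaf.stalk x) X.functionField) := by
  rw [injective_iff_map_eq_zero]
  intro a ha
  obtain ⟨U, hxU, s, rfl⟩ := X.presheaf.exists_germ_eq a
  have : Nonempty U := ⟨⟨x, hxU⟩⟩
  rw [Scheme.algebraMap_germ_eq_germToFunctionField] at ha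
  have hs : s = 0 := by
    apply Scheme.germToFunctionField_injective X U
    rw [ha, map_zero]
  rw [hs, map_zero]

/-- The local ring at a point is contained in the local ring at each of its generisations. -/
theorem localRing_le_of_specializes {x' x : X} (h : x' ⤳ x) :
    localRing X x ≤ localRing X x' := by
  rintro _ ⟨a, rfl⟩
  exact ⟨X.presheaf.stalkSpecializes h a, algebraMap_stalkSpecializes h a⟩

theorem isUnitAt_of_specializes {x' x : X} (h : x' ⤳ x) {v : X.functionField}
    (hv : IsUnitAt x v) : IsUnitAt x' v :=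
  ⟨localRing_le_of_specializes h hv.1, localRing_le_of_specializes h hv.2⟩

/-- A nonzero element of `O_{X,x}` is a unit at `x` iff it is a unit of `O_{X,x}`. -/
theorem isUnitAt_algebraMap_iff (x : X) (a : X.presheaf.stalk x)
    (ha : algebraMap (X.presheaf.stalk x) X.functionField a ≠ 0) :
    IsUnitAt x (algebraMap (X.presheaf.stalk x) X.functionField a) ↔ IsUnit a := by
  constructor
  · rintro ⟨-, b, hb⟩
    refine IsUnit.of_mul_eq_one b ?_
    apply algebraMap_stalk_injective x
    rw [map_mul, map_one, hb]
    exact mul_inv_cancel₀ ha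
  · rintro ⟨w, rfl⟩
    refine ⟨⟨(w : X.presheaf.stalk x), rfl⟩, ⟨((w⁻¹ : (X.presheaf.stalk x)ˣ) : X.presheaf.stalk x), ?_⟩⟩
    change algebraMap (X.presheaf.stalk x) X.functionField _ = _
    apply eq_inv_of_mul_eq_one_left
    rw [← map_mul, Units.inv_mul, map_one]

/-- For a Cartier family, membership of `x'` in the support can be tested with the local
equation at any specialisation `x` of `x'`. -/
theorem inSupp_iff_of_specializes {D : Fam X} (hD : D.IsCartier) {x' x : X} (h : x' ⤳ x) :
    D.InSupp x' ↔ ¬ IsUnitAt x' ((D x : (X.functionField)ˣ) : X.functionField) := by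
  obtain ⟨U, hxU, hU⟩ := hD x
  have hx' : x' ∈ U := h.mem_open U.isOpen hxU
  have h1 : UAt x' (D x' / D x) := hU x' hx'
  unfold Fam.InSupp
  rw [not_iff_not]
  constructor
  · intro h2
    exact uAt_congr (div_div_cancel _ _) (uAt_div (a := D x') h2 h1)
  · intro h2
    exact uAt_congr (div_mul_cancel _ _) (uAt_mul h1 (b := D x) h2)

/-- The support of a Cartier family is stable under specialisation. -/
theorem inSupp_of_specializes {D : Fam X} (hD : D.IsCartier) {x' x : X} (h : x' ⤳ x)
    (hx' : D.InSupp x') : D.InSupp x := by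
  intro hx
  exact (inSupp_iff_of_specializes hD h).mp hx' (isUnitAt_of_specializes h hx)

end LocalRings

section Krull

variable {X T : Scheme.{u}} [IsIntegral X] [IsIntegral T]

/-- **No isolated points** in the preimage of the support of an effective Cartier divisor at
points where the source has dimension at least two. -/
theorem exists_specializes_inSupp [IsLocallyNoetherian T]
    (j : T ⟶ X) (Y : Fam X) (hYc : Y.IsCartier) (hYe : Y.IsEffective)
    (t : T) (ht : Y.InSupp (j.base t))
    (hdim : ∃ ξ : T, ξ ⤳ t ∧ ξ ≠ t ∧ ξ ≠ genericPoint T) :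
    ∃ ζ : T, ζ ⤳ t ∧ ζ ≠ t ∧ Y.InSupp (j.base ζ) := by
  obtain ⟨a, ha⟩ := hYe (j.base t)
  have hane : algebraMap (X.presheaf.stalk (j.base t)) X.functionField a ≠ 0 := by
    rw [show (algebraMap (X.presheaf.stalk (j.base t)) X.functionField) a =
      ((Y (j.base t) : (X.functionField)ˣ) : X.functionField) from ha]
    exact Units.ne_zero _
  have hau : ¬ IsUnit a := by
    intro h
    apply ht
    have := (isUnitAt_algebraMap_iff (j.base t) a hane).mpr h
    rwa [show (algebraMap (X.presheaf.stalk (j.base t)) X.functionField) a =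
      ((Y (j.base t) : (X.functionField)ˣ) : X.functionField) from ha] at this
  -- the pulled back local equation
  have hg : ¬ IsUnit ((j.stalkMap t).hom a) := fun h => hau ((isUnit_map_iff _ a).mp h)
  -- the prime of the intermediate point
  obtain ⟨ξ, hξt, hξne, hξgen⟩ := hdim
  obtain ⟨yq, hyq⟩ : ξ ∈ Set.range (T.fromSpecStalk t) := by
    rw [Scheme.range_fromSpecStalk]; exact hξt
  have hinj : Function.Injective (T.fromSpecStalk t) := (T.fromSpecStalk t).injective
  have hq0 : yq.asIdeal ≠ ⊥ := by
    intro h0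
    apply hξgen
    -- the zero ideal goes to the generic point
    obtain ⟨y0, hy0⟩ : genericPoint T ∈ Set.range (T.fromSpecStalk t) := by
      rw [Scheme.range_fromSpecStalk]; exact (genericPoint_spec T).specializes trivial
    have hle : yq ⤳ y0 := by
      refine (PrimeSpectrum.le_iff_specializes yq y0).mp ?_
      change yq.asIdeal ≤ y0.asIdeal
      rw [h0]; exact bot_le
    have h1 : ξ ⤳ genericPoint T := by
      rw [← hyq, ← hy0]
      exact hle.map (T.fromSpecStalk t).continuous
    exact (h1.antisymm ((genericPoint_spec T).specializes trivial)).eq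
  have hqm : yq.asIdeal ≠ IsLocalRing.maximalIdeal (T.presheaf.stalk t) := by
    intro hm
    apply hξne
    have : yq = IsLocalRing.closedPoint (T.presheaf.stalk t) := PrimeSpectrum.ext hm
    rw [← hyq, this]
    exact Scheme.fromSpecStalk_closedPoint
  have hyqp : yq.asIdeal.IsPrime := yq.isPrime
  obtain ⟨p, hpp, hgp, hpm⟩ := exists_prime_ne_maximal yq.asIdeal hq0 hqm _ hg
  -- the point `ζ`
  set ζ : T := T.fromSpecStalk t ⟨p, hpp⟩ with hζ
  have hζt : ζ ⤳ t := by
    have : ζ ∈ Set.range (T.fromSpecStalk t) := ⟨_, rfl⟩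
    rwa [Scheme.range_fromSpecStalk] at this
  have hζne : ζ ≠ t := by
    intro h
    apply hpm
    have h2 : T.fromSpecStalk t ⟨p, hpp⟩ =
        T.fromSpecStalk t (IsLocalRing.closedPoint (T.presheaf.stalk t)) := by
      rw [Scheme.fromSpecStalk_closedPoint]; exact h
    exact congrArg PrimeSpectrum.asIdeal (hinj h2)
  refine ⟨ζ, hζt, hζne, ?_⟩
  -- the prime `p` is the preimage of the maximal ideal of `O_{T,ζ}`
  have hcl : (Spec.map (T.presheaf.stalkSpecializes hζt) ≫ T.fromSpecStalk t)
      (IsLocalRing.closedPoint (T.presheaf.stalk ζ)) = ζ := by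
    rw [Scheme.SpecMap_stalkSpecializes_fromSpecStalk hζt]
    exact Scheme.fromSpecStalk_closedPoint
  have hcl2 : Spec.map (T.presheaf.stalkSpecializes hζt)
      (IsLocalRing.closedPoint (T.presheaf.stalk ζ)) = ⟨p, hpp⟩ := hinj hcl
  have h3 : Ideal.comap (T.presheaf.stalkSpecializes hζt).hom
      (IsLocalRing.maximalIdeal (T.presheaf.stalk ζ)) = p :=
    congrArg PrimeSpectrum.asIdeal hcl2
  have hmem : T.presheaf.stalkSpecializes hζt ((j.stalkMap t).hom a) ∈
      IsLocalRing.maximalIdeal (T.presheaf.stalk ζ) := by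
    have h4 : (j.stalkMap t).hom a ∈ Ideal.comap (T.presheaf.stalkSpecializes hζt).hom
        (IsLocalRing.maximalIdeal (T.presheaf.stalk ζ)) := by
      rw [h3]; exact hgp
    exact h4
  have hcomm := Scheme.Hom.stalkSpecializes_stalkMap_apply j ζ t hζt a
  set a' := X.presheaf.stalkSpecializes (j.base.hom.map_specializes hζt) a with ha'
  have ha'u : ¬ IsUnit a' := by
    intro h
    have h5 : IsUnit ((j.stalkMap ζ).hom a') := h.map _
    have h6 : (j.stalkMap ζ).hom a' ∈ IsLocalRing.maximalIdeal (T.presheaf.stalk ζ) := by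
      have : (j.stalkMap ζ).hom a' = T.presheaf.stalkSpecializes hζt ((j.stalkMap t).hom a) :=
        hcomm
      rw [this]; exact hmem
    exact (IsLocalRing.mem_maximalIdeal _).mp h6 h5
  have hspec : j.base ζ ⤳ j.base t := j.base.hom.map_specializes hζt
  have hval : algebraMap (X.presheaf.stalk (j.base ζ)) X.functionField a' =
      ((Y (j.base t) : (X.functionField)ˣ) : X.functionField) := by
    rw [ha', algebraMap_stalkSpecializes hspec a]; exact ha
  rw [inSupp_iff_of_specializes hYc hspec, ← hval]
  intro h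
  exact ha'u ((isUnitAt_algebraMap_iff (j.base ζ) a' (by rw [hval]; exact Units.ne_zero _)).mp h)

/-- **(S3) of CUBE3.**  `j : T ⟶ X` (in the application `j = j_P : T → C × T`), `Y` an effective
Cartier divisor on `X`.  Assume `T` quasi-compact, `dim O_{T,t} ≥ 2` at closed points (`hdim`),
every non-closed point of `T` specialises to a point of `Ax` (`hAxis`: every irreducible closed
curve meets the axes), and `j⁻¹(Supp Y)` misses `Ax` (`hmiss`, from NB).  Then `j⁻¹(Supp Y) = ∅`. -/
theorem bp_empty [IsLocallyNoetherian T] [CompactSpace T]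
    (j : T ⟶ X) (Y : Fam X) (hYc : Y.IsCartier) (hYe : Y.IsEffective) (Ax : Set T)
    (hdim : ∀ t : T, IsClosed ({t} : Set T) → ∃ ξ : T, ξ ⤳ t ∧ ξ ≠ t ∧ ξ ≠ genericPoint T)
    (hAxis : ∀ ζ t : T, ζ ⤳ t → ζ ≠ t → ∃ a ∈ Ax, ζ ⤳ a)
    (hmiss : ∀ a ∈ Ax, ¬ Y.InSupp (j.base a)) (t : T) :
    ¬ Y.InSupp (j.base t) := by
  intro ht
  -- a closed point in the closure of `t`
  obtain ⟨t', ht', ht'c⟩ := (isClosed_closure (s := ({t} : Set T))).exists_closed_singleton
    (Set.singleton_nonempty t).closure
  have htt' : t ⤳ t' := specializes_iff_mem_closure.mpr ht'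
  have ht'Y : Y.InSupp (j.base t') :=
    inSupp_of_specializes hYc (j.base.hom.map_specializes htt') ht
  obtain ⟨ζ, hζt', hζne, hζY⟩ := exists_specializes_inSupp j Y hYc hYe t' ht'Y (hdim t' ht'c)
  obtain ⟨a, haAx, hζa⟩ := hAxis ζ t' hζt' hζne
  exact hmiss a haAx (inSupp_of_specializes hYc (j.base.hom.map_specializes hζa) hζY)

end Krull

end Fermat.Agent.S26.CUBE3.H2963
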