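import Fermat.Agent.S26.TChainDefs
import Fermat.Agent.S26.CUBE3.BP

/-!
# S26 / P15 CUBE3: the formal (category-theoretic) steps of the assembly of `cube3_curves`
(helper2963).  Vocabulary of the frozen `TChain.lean`; "DONE modulo frozen exports of Geom.lean".

* `pairPt y z : Pts (prodS sY sZ)`: the `K`-point `(y, z)` of `Y × Z`; every `K`-point of the
  product is a pair (`eq_pairPt`).
* `sliceL_pairPt_left`, `sliceL_pairPt_right`: the slice `X × {(y₀, z)}` lies in the plane
  `X × {y₀} × Z`, the slice `X × {(y, z₀)}` in the plane `X × Y × {z₀}`.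
* `pullc_one_same`, `linEquiv_pullc_one`: `φ^* 0 = 0`.
* `pullc_sliceL_axis_left/right`: **(AXES classes)** a Cartier class on `X × (Y × Z)` which is
  trivial on the plane `X × {y₀} × Z` (resp. `X × Y × {z₀}`) is trivial on every slice
  `X × {(y₀, z)}` (resp. `X × {(y, z₀)}`).
-/

set_option autoImplicit false

universe u

open CategoryTheory CategoryTheory.Limits AlgebraicGeometry NeronModelInfra GoodReductionJacobian

namespace Fermat.Agent.S26.CUBE3.H2963

open Fermat.Agent.S26

noncomputable section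

variable {K : Type u} [Field K]

section Pair

variable {X Y Z : Scheme.{u}} (sX : X ⟶ Spec (CommRingCat.of K))
  {sY : Y ⟶ Spec (CommRingCat.of K)} {sZ : Z ⟶ Spec (CommRingCat.of K)}

/-- The `K`-point `(y, z)` of `Y × Z`. -/
def pairPt (y : Pts sY) (z : Pts sZ) : Pts (prodS sY sZ) :=
  ⟨pullback.lift y.1 z.1 (by rw [y.2, z.2]), by
    unfold prodS
    rw [← Category.assoc, pullback.lift_fst]; exact y.2⟩

theorem pairPt_fst (y : Pts sY) (z : Pts sZ) : (pairPt y z).1 ≫ pullback.fst sY sZ = y.1 :=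
  pullback.lift_fst _ _ _

theorem pairPt_snd (y : Pts sY) (z : Pts sZ) : (pairPt y z).1 ≫ pullback.snd sY sZ = z.1 :=
  pullback.lift_snd _ _ _

/-- First coordinate of a `K`-point of the product. -/
def fstPt (t : Pts (prodS sY sZ)) : Pts sY :=
  ⟨t.1 ≫ pullback.fst sY sZ, by
    have h := t.2
    unfold prodS at h
    rw [Category.assoc]; exact h⟩

/-- Second coordinate of a `K`-point of the product. -/
def sndPt (t : Pts (prodS sY sZ)) : Pts sZ :=
  ⟨t.1 ≫ pullback.snd sY sZ, by
    have h := t.2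
    unfold prodS at h
    rw [Category.assoc, ← pullback.condition]; exact h⟩

/-- Every `K`-point of a product is a pair. -/
theorem eq_pairPt (t : Pts (prodS sY sZ)) : t = pairPt (fstPt t) (sndPt t) := by
  apply Subtype.ext
  apply pullback.hom_ext
  · rw [pairPt_fst]; rfl
  · rw [pairPt_snd]; rfl

theorem sliceR_fst (y₀ : Pts sY) (sZ : Z ⟶ Spec (CommRingCat.of K)) :
    sliceR y₀ sZ ≫ pullback.fst sY sZ = sZ ≫ y₀.1 :=
  pullback.lift_fst _ _ _

theorem sliceR_snd (y₀ : Pts sY) (sZ : Z ⟶ Spec (CommRingCat.of K)) :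
    sliceR y₀ sZ ≫ pullback.snd sY sZ = 𝟙 Z :=
  pullback.lift_snd _ _ _

theorem sliceL_fst (sY : Y ⟶ Spec (CommRingCat.of K)) (z₀ : Pts sZ) :
    sliceL sY z₀ ≫ pullback.fst sY sZ = 𝟙 Y :=
  pullback.lift_fst _ _ _

theorem sliceL_snd (sY : Y ⟶ Spec (CommRingCat.of K)) (z₀ : Pts sZ) :
    sliceL sY z₀ ≫ pullback.snd sY sZ = sY ≫ z₀.1 :=
  pullback.lift_snd _ _ _

theorem pairPt_eq_comp_sliceR (y₀ : Pts sY) (z : Pts sZ) :
    (pairPt y₀ z).1 = z.1 ≫ sliceR y₀ sZ := by
  apply pullback.hom_ext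
  · rw [pairPt_fst, Category.assoc, sliceR_fst, ← Category.assoc, z.2, Category.id_comp]
  · rw [pairPt_snd, Category.assoc, sliceR_snd, Category.comp_id]

theorem pairPt_eq_comp_sliceL (y : Pts sY) (z₀ : Pts sZ) :
    (pairPt y z₀).1 = y.1 ≫ sliceL sY z₀ := by
  apply pullback.hom_ext
  · rw [pairPt_fst, Category.assoc, sliceL_fst, Category.comp_id]
  · rw [pairPt_snd, Category.assoc, sliceL_snd, ← Category.assoc, y.2, Category.id_comp]

theorem planeXZ_fst (y₀ : Pts sY) (sZ : Z ⟶ Spec (CommRingCat.of K)) :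
    planeXZ sX y₀ sZ ≫ pullback.fst sX (prodS sY sZ) = pullback.fst sX sZ := by
  unfold planeXZ
  rw [pullback.lift_fst, Category.comp_id]

theorem planeXZ_snd (y₀ : Pts sY) (sZ : Z ⟶ Spec (CommRingCat.of K)) :
    planeXZ sX y₀ sZ ≫ pullback.snd sX (prodS sY sZ) = pullback.snd sX sZ ≫ sliceR y₀ sZ := by
  unfold planeXZ
  rw [pullback.lift_snd]

theorem planeXY_fst (sY : Y ⟶ Spec (CommRingCat.of K)) (z₀ : Pts sZ) :
    planeXY sX sY z₀ ≫ pullback.fst sX (prodS sY sZ) = pullback.fst sX sY := by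
  unfold planeXY
  rw [pullback.lift_fst, Category.comp_id]

theorem planeXY_snd (sY : Y ⟶ Spec (CommRingCat.of K)) (z₀ : Pts sZ) :
    planeXY sX sY z₀ ≫ pullback.snd sX (prodS sY sZ) = pullback.snd sX sY ≫ sliceL sY z₀ := by
  unfold planeXY
  rw [pullback.lift_snd]

/-- The slice `X × {(y₀, z)}` lies in the plane `X × {y₀} × Z`. -/
theorem sliceL_pairPt_left (y₀ : Pts sY) (z : Pts sZ) :
    sliceL sX (pairPt y₀ z) = sliceL sX z ≫ planeXZ sX y₀ sZ := by
  apply pullback.hom_ext
  · rw [sliceL_fst, Category.assoc, planeXZ_fst, sliceL_fst]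
  · rw [sliceL_snd, Category.assoc, planeXZ_snd, ← Category.assoc, sliceL_snd,
      pairPt_eq_comp_sliceR, Category.assoc]

/-- The slice `X × {(y, z₀)}` lies in the plane `X × Y × {z₀}`. -/
theorem sliceL_pairPt_right (y : Pts sY) (z₀ : Pts sZ) :
    sliceL sX (pairPt y z₀) = sliceL sX y ≫ planeXY sX sY z₀ := by
  apply pullback.hom_ext
  · rw [sliceL_fst, Category.assoc, planeXY_fst, sliceL_fst]
  · rw [sliceL_snd, Category.assoc, planeXY_snd, ← Category.assoc, sliceL_snd,
      pairPt_eq_comp_sliceL, Category.assoc]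

end Pair

section Classes

/-- The trivial family is Cartier. -/
theorem isCartier_one {X : Scheme.{u}} [IsIntegral X] : (1 : Fam X).IsCartier := by
  intro x
  refine ⟨⊤, trivial, fun y _ => ?_⟩
  have h : ((1 : Fam X) y / (1 : Fam X) x) = 1 := by simp
  rw [h]
  exact uAt_one y

/-- The local ring at the generic point is the whole function field. -/
theorem mem_localRing_genericPoint {X : Scheme.{u}} [IsIntegral X] (v : X.functionField) :
    v ∈ localRing X (genericPoint X) := by
  refine ⟨v, ?_⟩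
  simp only [RingHom.algebraMap_toAlgebra]
  rw [TopCat.Presheaf.stalkSpecializes_refl]
  rfl

/-- The generic point is in the support of no family. -/
theorem not_inSupp_genericPoint {X : Scheme.{u}} [IsIntegral X] (D : Fam X) :
    ¬ D.InSupp (genericPoint X) := by
  intro h
  exact h ⟨mem_localRing_genericPoint _, mem_localRing_genericPoint _⟩

theorem pullFun_one {X Y : Scheme.{u}} [IsIntegral X] [IsIntegral Y] (φ : Y ⟶ X) :
    pullFun φ (1 : X.functionField) = 1 := by
  unfold pullFun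
  have h : (1 : X.functionField) ∈ localRing X (φ.base (genericPoint Y)) := Subring.one_mem _
  rw [dif_pos h]
  have hc : Classical.choose h = 1 := by
    apply algebraMap_stalk_injective
    rw [map_one]
    exact Classical.choose_spec h
  rw [hc, map_one]

theorem toUnit_one {F : Type u} [Field F] : toUnit (1 : F) = 1 := by
  unfold toUnit
  rw [dif_neg one_ne_zero]
  exact Units.ext rfl

/-- `φ^* 0 = 0` on the nose. -/
theorem pullc_one {X Y : Scheme.{u}} [IsIntegral X] [IsIntegral Y] (φ : Y ⟶ X) :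
    Fam.pullc φ (1 : Fam X) = 1 := by
  funext y
  simp only [Fam.pullc, Fam.pullback, Fam.const, Pi.mul_apply, Pi.inv_apply, Pi.one_apply,
    inv_one, mul_one, Units.val_one]
  rw [pullFun_one, toUnit_one]

variable {X Y Z : Scheme.{u}} (sX : X ⟶ Spec (CommRingCat.of K))
  {sY : Y ⟶ Spec (CommRingCat.of K)} {sZ : Z ⟶ Spec (CommRingCat.of K)}

/-- **AXES classes, left axis**: a Cartier class on `X × (Y × Z)` trivial on the plane
`X × {y₀} × Z` is trivial on every slice `X × {(y₀, z)}`. -/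
theorem pullc_sliceL_axis_left [IsIntegral X] [IsIntegral (pullback sX sZ)]
    [IsIntegral (pullback sX (prodS sY sZ))] (y₀ : Pts sY) (z : Pts sZ)
    (M : Fam (pullback sX (prodS sY sZ))) (hM : M.IsCartier)
    (h : Fam.LinEquiv (Fam.pullc (planeXZ sX y₀ sZ) M) 1) :
    Fam.LinEquiv (Fam.pullc (sliceL sX (pairPt y₀ z)) M) 1 := by
  rw [sliceL_pairPt_left]
  have h1 := pullc_comp (sliceL sX z) (planeXZ sX y₀ sZ) M hM
  have h2 := pullc_linEquiv (sliceL sX z) _ 1 (isCartier_pullc _ M hM) isCartier_one h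
  rw [pullc_one] at h2
  exact linEquiv_trans h1 h2

/-- **AXES classes, right axis**: a Cartier class on `X × (Y × Z)` trivial on the plane
`X × Y × {z₀}` is trivial on every slice `X × {(y, z₀)}`. -/
theorem pullc_sliceL_axis_right [IsIntegral X] [IsIntegral (pullback sX sY)]
    [IsIntegral (pullback sX (prodS sY sZ))] (y : Pts sY) (z₀ : Pts sZ)
    (M : Fam (pullback sX (prodS sY sZ))) (hM : M.IsCartier)
    (h : Fam.LinEquiv (Fam.pullc (planeXY sX sY z₀) M) 1) :
    Fam.LinEquiv (Fam.pullc (sliceL sX (pairPt y z₀)) M) 1 := by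
  rw [sliceL_pairPt_right]
  have h1 := pullc_comp (sliceL sX y) (planeXY sX sY z₀) M hM
  have h2 := pullc_linEquiv (sliceL sX y) _ 1 (isCartier_pullc _ M hM) isCartier_one h
  rw [pullc_one] at h2
  exact linEquiv_trans h1 h2

/-- **(S5) END** of SEESAW / CUBE3 in the frozen vocabulary: if `M ~ p_T^* V` on `C × T` and `M` is
trivial on `{c₀} × T`, then `M ~ 0`. -/
theorem linEquiv_one_of_linEquiv_pullback_snd {C T : Scheme.{u}}
    {sC : C ⟶ Spec (CommRingCat.of K)} (sT : T ⟶ Spec (CommRingCat.of K))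
    [IsIntegral T] [IsIntegral (pullback sC sT)] (c₀ : Pts sC)
    (hdom : (pullback.snd sC sT).base (genericPoint (pullback sC sT : Scheme.{u})) = genericPoint T)
    (M : Fam (pullback sC sT)) (hM : M.IsCartier) (V : Fam T) (hV : V.IsCartier)
    (hMV : Fam.LinEquiv M (Fam.pullback (pullback.snd sC sT) V))
    (h0 : Fam.LinEquiv (Fam.pullc (sliceR c₀ sT) M) 1) :
    Fam.LinEquiv M 1 := by
  obtain ⟨-, hpb⟩ := pullback_linEquiv_pullc (pullback.snd sC sT) V hV
    (by rw [hdom]; exact not_inSupp_genericPoint V)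
  have hM' : Fam.LinEquiv M (Fam.pullc (pullback.snd sC sT) V) := linEquiv_trans hMV hpb
  have hcV : (Fam.pullc (pullback.snd sC sT) V).IsCartier := isCartier_pullc _ V hV
  have h1 : Fam.LinEquiv (Fam.pullc (sliceR c₀ sT) M)
      (Fam.pullc (sliceR c₀ sT) (Fam.pullc (pullback.snd sC sT) V)) :=
    pullc_linEquiv (sliceR c₀ sT) M _ hM hcV hM'
  have h2 := pullc_comp (sliceR c₀ sT) (pullback.snd sC sT) V hV
  rw [sliceR_snd] at h2
  have h3 : Fam.LinEquiv V 1 :=
    linEquiv_trans (linEquiv_symm (pullc_id V hV))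
      (linEquiv_trans h2 (linEquiv_trans (linEquiv_symm h1) h0))
  have h4 := pullc_linEquiv (pullback.snd sC sT) V 1 hV isCartier_one h3
  rw [pullc_one] at h4
  exact linEquiv_trans hM' h4

end Classes

end

end Fermat.Agent.S26.CUBE3.H2963
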