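import Fermat.Agent.S26.SEESAW.Core7004

/-!
# S26 / P15 CUBE3: abstract core in the language of `Defs.lean` (helper8423)

The cube theorem for `X = C × T`, `T = C₂ × C₃`, proved from *bridge hypotheses* in the style
of helper7004's abstract seesaw (`SEESAW/Core7004.lean`, which this file imports and reuses:
`IsProductLike`, `Hartogs`, `IsHtOne`, `HorizEff`, `linEquiv_one_of_vertical`).

* `cube3`        : the cube theorem from `IsCubeLike` (bridge), `(C1)`, `(K3)` and `(NB)`;
* `nb_of_slice`  : `(NB)` (no bad fibre) from `IsCubeLike` + slice data `IsSlice` (the surface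
                   `C × B` over the normalisation `B` of a curve through `t` in `T`);
* `cube3_of_slices` : both combined.

No Weil divisors, no multiplicities, no global vertical decomposition: only local equations,
the algebraic Hartogs property, height-one points and a *local* vertical modification.
-/

set_option autoImplicit false

universe u v w

open CategoryTheory AlgebraicGeometry

namespace Fermat.Agent.S26.CUBE3.H8423

open Fermat.Agent.S26 Fermat.Agent.S26.DIV.H2384 Fermat.Agent.S26.SEESAW.H7004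

noncomputable section

/-! ### General lemmas on families -/

section General

variable {X : Scheme.{u}} [IsIntegral X]

theorem inSupp_of_specializes {D : Fam X} (hD : D.IsCartier) {x y : X} (h : x ⤳ y)
    (hx : D.InSupp x) : D.InSupp y :=
  fun hy => not_inSupp_of_specializes hD h (not_inSupp_iff.mpr hy) hx

/-- Hartogs, contrapositive: a point of the support of a Cartier family has a height-one
generization in the support. -/
theorem exists_htOne_inSupp (hX : Hartogs X) {Y : Fam X} (hY : Y.IsCartier) {x : X}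
    (hx : Y.InSupp x) : ∃ ξ : X, IsHtOne ξ ∧ ξ ⤳ x ∧ Y.InSupp ξ := by
  by_contra hno
  apply hx
  apply hartogs_unit hX
  intro ξ hξ hsp
  apply (isUnitAt_apply_iff hY hsp).mpr
  by_contra hin
  exact hno ⟨ξ, hξ, hsp, hin⟩

theorem moved_val (Y : Fam X) (u : (X.functionField)ˣ) (x : X) :
    (((Y * (Fam.const u)⁻¹) x : (X.functionField)ˣ) : X.functionField) =
      ((Y x : (X.functionField)ˣ) : X.functionField) / (u : X.functionField) := by
  rw [Pi.mul_apply, Pi.inv_apply, Units.val_mul, Units.val_inv_eq_inv_val, div_eq_mul_inv]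
  rfl

theorem moved_inSupp_iff (Y : Fam X) (u : (X.functionField)ˣ) {x : X}
    (hu : IsUnitAt x (u : X.functionField)) :
    (Y * (Fam.const u)⁻¹).InSupp x ↔ Y.InSupp x := by
  unfold Fam.InSupp
  rw [moved_val]
  constructor
  · intro h h'
    exact h (isUnitAt_div h' hu)
  · intro h h'
    apply h
    have := isUnitAt_mul h' hu
    rwa [div_mul_cancel₀ _ (Units.ne_zero u)] at this

theorem pullc_moved {X' : Scheme.{u}} [IsIntegral X'] (φ : X' ⟶ X) {D : Fam X}
    (hD : D.IsCartier) (u : (X.functionField)ˣ) :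
    Fam.pullc φ (D * (Fam.const u)⁻¹) = Fam.pullc φ D := by
  rw [pullc_mul φ hD (isCartier_inv (isCartier_const u)), const_inv, pullc_const, mul_one]

end General

/-! ### Definitions -/

section Defs

variable {X C T : Scheme.{u}} [IsIntegral X] [IsIntegral C] [IsIntegral T] {ι : Type v}

/-- The point of `T` under the fibre `i t : C ⟶ X`. -/
def pt (pT : X ⟶ T) (i : ι → (C ⟶ X)) (t : ι) : T :=
  pT.base ((i t).base (genericPoint C))

/-- `Y` is a unit at every vertical height-one point through the fibre over `t`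
("no vertical component of `Y` passes through `t`"). -/
def VertUnitAlong (pT : X ⟶ T) (i : ι → (C ⟶ X)) (Y : Fam X) (t : ι) : Prop :=
  ∀ ξ : X, IsHtOne ξ → pT.base ξ ≠ genericPoint T → pT.base ξ ⤳ pt pT i t →
    IsUnitAt ξ ((Y ξ : (X.functionField)ˣ) : X.functionField)

/-- The horizontal support of `Y`: the points lying on a horizontal height-one point of the
support. -/
def HSupp (pT : X ⟶ T) (Y : Fam X) (x : X) : Prop :=
  ∃ ξ : X, IsHtOne ξ ∧ pT.base ξ = genericPoint T ∧ Y.InSupp ξ ∧ ξ ⤳ x

/-- The bridge hypotheses for the cube theorem on `X = C × T`, `T = C₂ × C₃`: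
`i t : C ⟶ X` the fibres over the closed points `t : ι` of `T`, `Ax ⊆ ι` the points on the two
axes, `j : T ⟶ X` the section at `c₀`, and `jx x : T ⟶ X` the sections at the closed points
`x : κ` of `C` (`cx x` the underlying point). -/
structure IsCubeLike {κ : Type w} (pC : X ⟶ C) (pT : X ⟶ T) (i : ι → (C ⟶ X)) (j : T ⟶ X)
    (cx : κ → C) (jx : κ → (T ⟶ X)) (Ax : Set ι) : Prop where
  prod : IsProductLike pC pT i j
  ax_nonempty : Ax.Nonempty
  jx_pT : ∀ x, jx x ≫ pT = 𝟙 T
  jx_pC : ∀ x τ, pC.base ((jx x).base τ) = cx x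
  jx_i : ∀ x t, (jx x).base (pt pT i t) = (i t).base (cx x)
  /-- Closed points `(x, τ)` are dense in every locally closed set `closure {ξ} \ A`. -/
  dense' : ∀ (ξ : X) (A : Set X), IsClosed A → ξ ∉ A →
    ∃ (x : κ) (τ : T), ξ ⤳ (jx x).base τ ∧ (jx x).base τ ∉ A
  /-- Every point of `T` specialises to a closed point. -/
  closedPt : ∀ τ : T, ∃ t : ι, τ ⤳ pt pT i t
  /-- Local vertical modification: near the fibre over `t` the vertical part of a Cartier
  divisor is the pullback of a principal divisor of `T` (`O_{T,t}` is factorial). -/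
  locVert : ∀ Y : Fam X, Y.IsCartier → ∀ t : ι, ∃ v : (T.functionField)ˣ,
    ∀ ξ : X, IsHtOne ξ → pT.base ξ ≠ genericPoint T → pT.base ξ ⤳ pt pT i t →
      IsUnitAt ξ (((Y ξ : (X.functionField)ˣ) : X.functionField) /
        pullFun pT (v : T.functionField))
  /-- Krull's principal ideal theorem at the closed points of the surface `T`. -/
  krull : ∀ (t : ι) (h : T.functionField), h ∈ localRing T (pt pT i t) → h ≠ 0 →
    ¬ IsUnitAt (pt pT i t) h → ∃ γ : T, γ ⤳ pt pT i t ∧ γ ≠ pt pT i t ∧ ¬ IsUnitAt γ h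
  /-- Every irreducible closed subset of `T` with more than one point meets the axes. -/
  axes : ∀ (γ : T) (t' : ι), γ ⤳ pt pT i t' → γ ≠ pt pT i t' → ∃ t ∈ Ax, γ ⤳ pt pT i t

/-- Slice data over a curve `B → T` through `t` (model: `ν : B ⟶ T` the normalisation of the
closure of `γ`, `S' = C × B`, `μ = id × ν`, `pB` the projection, `i'` the fibre over a point
`b₀ ↦ t`, `s` the section at the closed point `c` of `C`). -/
structure IsSlice {B S' : Scheme.{u}} [IsIntegral B] [IsIntegral S'] (pT : X ⟶ T)
    (it : C ⟶ X) (jc : T ⟶ X) (c : C) (γ : T) (ν : B ⟶ T) (μ : S' ⟶ X) (pB : S' ⟶ B)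
    (i' : C ⟶ S') (s : B ⟶ S') : Prop where
  i'_μ : i' ≫ μ = it
  s_μ : s ≫ μ = ν ≫ jc
  s_pB : s ≫ pB = 𝟙 B
  μ_pT : μ ≫ pT = pB ≫ ν
  ν_gen : ν.base (genericPoint B) = γ
  pB_gen : pB.base (genericPoint S') = genericPoint B
  hartogs : Hartogs S'
  μ_gen_htOne : IsHtOne (μ.base (genericPoint S'))
  /-- The only vertical height-one point through the fibre `i'` is its generic point. -/
  fibre_unique : ∀ (c' : C) (ξ : S'), IsHtOne ξ → pB.base ξ ≠ genericPoint B →
    ξ ⤳ i'.base c' → ξ = i'.base (genericPoint C)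
  /-- The local ring at the generic point of the fibre `i'` is a DVR with a uniformizer
  coming from `B`. -/
  unif : ∃ π : B.functionField, π ≠ 0 ∧ ∀ f : S'.functionField, f ≠ 0 →
    ∃ m : ℤ, IsUnitAt (i'.base (genericPoint C)) (f * pullFun pB π ^ m)
  /-- The section meets the fibre at `c`. -/
  meets : ∃ b₀ : B, s.base b₀ = i'.base c

end Defs


/-! ### The cube argument -/

section Main

variable {X C T : Scheme.{u}} [IsIntegral X] [IsIntegral C] [IsIntegral T] {ι : Type v}
  {κ : Type w} {pC : X ⟶ C} {pT : X ⟶ T} {i : ι → (C ⟶ X)} {j : T ⟶ X}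
  {cx : κ → C} {jx : κ → (T ⟶ X)} {Ax : Set ι}

/-- A Cartier family which is horizontally effective and has no vertical component through
the fibre over `t` is effective at all points of this fibre. -/
theorem eff_along_fibre (S : IsProductLike pC pT i j) {Y : Fam X} (hY : Y.IsCartier)
    (hYh : HorizEff pT Y) (t : ι) (hv : VertUnitAlong pT i Y t) (c : C) :
    ((Y ((i t).base c) : (X.functionField)ˣ) : X.functionField) ∈
      localRing X ((i t).base c) := by
  apply S.hartogs
  intro ξ hξ hx
  rw [mem_localRing_apply_iff hY hx]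
  by_cases hh : pT.base ξ = genericPoint T
  · exact hYh ξ hξ hh
  · refine (hv ξ hξ hh ?_).1
    have := map_specializes pT hx
    rwa [S.i_pT t c] at this

/-- If moreover the fibre is not contained in the support and the restricted class is that
of `E`, the restriction to the fibre is the divisor `E`. -/
theorem same_on_fibre (S : IsProductLike pC pT i j) {E : Fam C}
    (hE1 : ∀ E' : Fam C, E'.IsCartier → E'.IsEffective → E'.LinEquiv E → E'.Same E)
    {Y : Fam X} (hY : Y.IsCartier) (hYh : HorizEff pT Y) (t : ι)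
    (hv : VertUnitAlong pT i Y t)
    (hgood : ¬ Y.InSupp ((i t).base (genericPoint C)))
    (hcls : (Fam.pullc (i t) Y).LinEquiv E) :
    (Fam.pullback (i t) Y).Same E := by
  apply hE1
  · exact pullback_isCartier (i t) hY hgood
  · intro c
    rw [pullback_apply_val (i t) hY hgood]
    exact pullFun_mem_localRing (i t) c (eff_along_fibre S hY hYh t hv c)
  · exact linEquiv_trans (linEquiv_symm (pullc_linEquiv_pullback (i t) hY hgood)) hcls

/-- In the situation of `same_on_fibre`, the support of `Y` meets the fibre inside `Supp E`. -/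
theorem inSupp_of_inSupp_fibre (S : IsProductLike pC pT i j) {E : Fam C}
    (hE1 : ∀ E' : Fam C, E'.IsCartier → E'.IsEffective → E'.LinEquiv E → E'.Same E)
    {Y : Fam X} (hY : Y.IsCartier) (hYh : HorizEff pT Y) (t : ι)
    (hv : VertUnitAlong pT i Y t)
    (hgood : ¬ Y.InSupp ((i t).base (genericPoint C)))
    (hcls : (Fam.pullc (i t) Y).LinEquiv E) (c : C) (hc : Y.InSupp ((i t).base c)) :
    E.InSupp c := by
  intro hEc
  have hsame := same_on_fibre S hE1 hY hYh t hv hgood hcls c
  have hu : IsUnitAt c ((Fam.pullback (i t) Y c : (C.functionField)ˣ) : C.functionField) := by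
    have := isUnitAt_mul hsame hEc
    rwa [← Units.val_mul, div_mul_cancel] at this
  rw [pullback_apply_val (i t) hY hgood] at hu
  exact hc (isUnitAt_of_isUnitAt_pullFun (i t) c (eff_along_fibre S hY hYh t hv c) hu
    (pullFun_apply_ne_zero (i t) hY hgood c))

/-- The class of `W + pr_C^* E` on a fibre where `W` is trivial is the class of `E`. -/
theorem pullc_fibre_linEquiv (S : IsProductLike pC pT i j) {E : Fam C} (hE : E.IsCartier)
    {W : Fam X} (hW : W.IsCartier) (t : ι) (h1 : (Fam.pullc (i t) W).LinEquiv 1) :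
    (Fam.pullc (i t) (W * Fam.pullback pC E)).LinEquiv E := by
  have hEgen : ¬ E.InSupp (pC.base (genericPoint X)) := by
    rw [S.pC_gen]; exact not_inSupp_genericPoint E
  have hPE : (Fam.pullback pC E).IsCartier := pullback_isCartier pC hE hEgen
  have e2 : Fam.pullc (i t) (W * Fam.pullback pC E) =
      Fam.pullc (i t) W * Fam.pullc (i t) (Fam.pullback pC E) := pullc_mul (i t) hW hPE
  have e3 : (Fam.pullc (i t) (Fam.pullback pC E)).LinEquiv E := by
    have a1 : (Fam.pullc pC E).LinEquiv (Fam.pullback pC E) :=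
      pullc_linEquiv_pullback pC hE hEgen
    have a2 := pullc_linEquiv (i t) (pullc_isCartier pC hE) hPE a1
    have a3 : Fam.pullc (i t) (Fam.pullc pC E) = Fam.pullc (𝟙 C) E := by
      rw [← pullc_comp (i t) pC hE, S.i_pC t]
    have a4 : (Fam.pullc (𝟙 C) E).LinEquiv (Fam.pullback (𝟙 C) E) :=
      pullc_linEquiv_pullback (𝟙 C) hE (not_inSupp_genericPoint E)
    rw [pullback_id] at a4
    rw [a3] at a2
    exact linEquiv_trans (linEquiv_symm a2) a4
  rw [e2]
  have := linEquiv_mul h1 e3
  rwa [one_mul] at this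

theorem horizEff_moved {Y : Fam X} (hYh : HorizEff pT Y) {u : (X.functionField)ˣ}
    (hu : ∀ ξ : X, pT.base ξ = genericPoint T → IsUnitAt ξ (u : X.functionField)) :
    HorizEff pT (Y * (Fam.const u)⁻¹) := by
  intro ξ hξ hξT
  rw [moved_val, div_eq_mul_inv]
  exact Subring.mul_mem _ (hYh ξ hξ hξT) (hu ξ hξT).2

/-- The local vertical modification of a Cartier family at `t`. -/
theorem exists_modified (S : IsCubeLike pC pT i j cx jx Ax) {Y : Fam X} (hY : Y.IsCartier)
    (t : ι) :
    ∃ u : (X.functionField)ˣ,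
      (∀ ξ : X, pT.base ξ = genericPoint T → IsUnitAt ξ (u : X.functionField)) ∧
      VertUnitAlong pT i (Y * (Fam.const u)⁻¹) t := by
  obtain ⟨v, hv⟩ := S.locVert Y hY t
  have h0 : pullFun pT (v : T.functionField) ≠ 0 :=
    pullFun_ne_zero_dom pT S.prod.pT_gen (Units.ne_zero v)
  refine ⟨Units.mk0 _ h0, ?_, ?_⟩
  · intro ξ hξT
    show IsUnitAt ξ (pullFun pT (v : T.functionField))
    apply isUnitAt_pullFun pT ξ
    rw [hξT]; exact isUnitAt_genericPoint _
  · intro ξ hξ hne hsp
    rw [moved_val]
    exact hv ξ hξ hne hsp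

/-- **Claim A.**  On an axis fibre the horizontal support of `Y` lies over `Supp E`. -/
theorem inSupp_of_hSupp_axis (S : IsCubeLike pC pT i j cx jx Ax) {E : Fam C}
    (hE1 : ∀ E' : Fam C, E'.IsCartier → E'.IsEffective → E'.LinEquiv E → E'.Same E)
    (hNB : ∀ t ∈ Ax, ∀ Y : Fam X, Y.IsCartier → HorizEff pT Y → VertUnitAlong pT i Y t →
      (Fam.pullc (i t) Y).LinEquiv E → ¬ Y.InSupp ((i t).base (genericPoint C)))
    {Y : Fam X} (hY : Y.IsCartier) (hYh : HorizEff pT Y) (t : ι) (ht : t ∈ Ax)
    (hcls : (Fam.pullc (i t) Y).LinEquiv E) (c : C) (hc : HSupp pT Y ((i t).base c)) :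
    E.InSupp c := by
  obtain ⟨u, hu, hv⟩ := exists_modified S hY t
  have hY' : (Y * (Fam.const u)⁻¹).IsCartier := isCartier_moved Y hY u
  have hYh' : HorizEff pT (Y * (Fam.const u)⁻¹) := horizEff_moved hYh hu
  have hcls' : (Fam.pullc (i t) (Y * (Fam.const u)⁻¹)).LinEquiv E := by
    rw [pullc_moved (i t) hY u]; exact hcls
  have hgood := hNB t ht _ hY' hYh' hv hcls'
  obtain ⟨ξ, _, hξT, hin, hsp⟩ := hc
  have hin' : (Y * (Fam.const u)⁻¹).InSupp ξ := (moved_inSupp_iff Y u (hu ξ hξT)).mpr hin
  exact inSupp_of_inSupp_fibre S.prod hE1 hY' hYh' t hv hgood hcls' c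
    (inSupp_of_specializes hY' hsp hin')

/-- **Claim B.**  The section at a closed point `x ∉ Supp E` of `C` does not meet the
horizontal support of `Y`. -/
theorem not_hSupp_section (S : IsCubeLike pC pT i j cx jx Ax) {E : Fam C}
    (hE1 : ∀ E' : Fam C, E'.IsCartier → E'.IsEffective → E'.LinEquiv E → E'.Same E)
    (hNB : ∀ t ∈ Ax, ∀ Y : Fam X, Y.IsCartier → HorizEff pT Y → VertUnitAlong pT i Y t →
      (Fam.pullc (i t) Y).LinEquiv E → ¬ Y.InSupp ((i t).base (genericPoint C)))
    {Y : Fam X} (hY : Y.IsCartier) (hYh : HorizEff pT Y)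
    (hcls : ∀ t ∈ Ax, (Fam.pullc (i t) Y).LinEquiv E) (x : κ) (hx : ¬ E.InSupp (cx x))
    (τ : T) : ¬ HSupp pT Y ((jx x).base τ) := by
  intro hHS
  have hpTj : ∀ τ' : T, pT.base ((jx x).base τ') = τ' := pT_j_base (S.jx_pT x)
  obtain ⟨t', ht'⟩ := S.closedPt τ
  have hz : (jx x).base (pt pT i t') = (i t').base (cx x) := S.jx_i x t'
  obtain ⟨u, hu, hv⟩ := exists_modified S hY t'
  have hY' : (Y * (Fam.const u)⁻¹).IsCartier := isCartier_moved Y hY u
  have hYh' : HorizEff pT (Y * (Fam.const u)⁻¹) := horizEff_moved hYh hu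
  -- the modified family contains `z = (x, t')` in its support
  have hinz : (Y * (Fam.const u)⁻¹).InSupp ((jx x).base (pt pT i t')) := by
    obtain ⟨ξ, _, hξT, hin, hsp⟩ := hHS
    exact inSupp_of_specializes hY' (hsp.trans (map_specializes (jx x) ht'))
      ((moved_inSupp_iff Y u (hu ξ hξT)).mpr hin)
  -- the generic point of the section is not in the support
  have hζ : ¬ (Y * (Fam.const u)⁻¹).InSupp ((jx x).base (genericPoint T)) := by
    intro hin
    obtain ⟨ξ1, hξ1, hsp1, hin1⟩ := exists_htOne_inSupp S.prod.hartogs hY' hin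
    have hT1 : pT.base ξ1 = genericPoint T := by
      apply eq_genericPoint_of_specializes
      have := map_specializes pT hsp1
      rwa [hpTj] at this
    have hinY : Y.InSupp ξ1 := (moved_inSupp_iff Y u (hu ξ1 hT1)).mp hin1
    obtain ⟨t, ht⟩ := S.ax_nonempty
    apply hx
    apply inSupp_of_hSupp_axis S hE1 hNB hY hYh t ht (hcls t ht) (cx x)
    refine ⟨ξ1, hξ1, hT1, hinY, hsp1.trans ?_⟩
    rw [← S.jx_i x t]
    exact map_specializes (jx x) (DIV.H2384.genericPoint_specializes _)
  -- the pulled back local equation at `t'`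
  have hmem : (((Y * (Fam.const u)⁻¹) ((jx x).base (pt pT i t')) : (X.functionField)ˣ) :
      X.functionField) ∈ localRing X ((jx x).base (pt pT i t')) := by
    rw [hz]; exact eff_along_fibre S.prod hY' hYh' t' hv (cx x)
  have hh0 := pullFun_apply_ne_zero (jx x) hY' hζ (pt pT i t')
  have hhmem := pullFun_mem_localRing (jx x) (pt pT i t') hmem
  have hhnu : ¬ IsUnitAt (pt pT i t') (pullFun (jx x)
      (((Y * (Fam.const u)⁻¹) ((jx x).base (pt pT i t')) : (X.functionField)ˣ) :
        X.functionField)) := by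
    intro hunit
    exact hinz (isUnitAt_of_isUnitAt_pullFun (jx x) (pt pT i t') hmem hunit hh0)
  obtain ⟨γ, hγsp, hγne, hγnu⟩ := S.krull t' _ hhmem hh0 hhnu
  have hspγ : (jx x).base γ ⤳ (jx x).base (pt pT i t') := map_specializes (jx x) hγsp
  have hinγ : (Y * (Fam.const u)⁻¹).InSupp ((jx x).base γ) := by
    intro hunit
    apply hγnu
    exact isUnitAt_pullFun (jx x) γ ((isUnitAt_apply_iff hY' hspγ).mpr hunit)
  obtain ⟨ξ2, hξ2, hsp2, hin2⟩ := exists_htOne_inSupp S.prod.hartogs hY' hinγ
  have hT2 : pT.base ξ2 = genericPoint T := by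
    by_contra hne
    apply hin2
    apply hv ξ2 hξ2 hne
    have := map_specializes pT hsp2
    rw [hpTj] at this
    exact this.trans hγsp
  have hinY2 : Y.InSupp ξ2 := (moved_inSupp_iff Y u (hu ξ2 hT2)).mp hin2
  obtain ⟨t, ht, hγt⟩ := S.axes γ t' hγsp hγne
  apply hx
  apply inSupp_of_hSupp_axis S hE1 hNB hY hYh t ht (hcls t ht) (cx x)
  refine ⟨ξ2, hξ2, hT2, hinY2, hsp2.trans ?_⟩
  rw [← S.jx_i x t]
  exact map_specializes (jx x) hγt

/-- **(a)** The horizontal part of `Y` lies over `Supp E`. -/
theorem inSupp_of_horizontal (S : IsCubeLike pC pT i j cx jx Ax) {E : Fam C}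
    (hE : E.IsCartier)
    (hE1 : ∀ E' : Fam C, E'.IsCartier → E'.IsEffective → E'.LinEquiv E → E'.Same E)
    (hNB : ∀ t ∈ Ax, ∀ Y : Fam X, Y.IsCartier → HorizEff pT Y → VertUnitAlong pT i Y t →
      (Fam.pullc (i t) Y).LinEquiv E → ¬ Y.InSupp ((i t).base (genericPoint C)))
    {Y : Fam X} (hY : Y.IsCartier) (hYh : HorizEff pT Y)
    (hcls : ∀ t ∈ Ax, (Fam.pullc (i t) Y).LinEquiv E) (ξ : X) (hξ : IsHtOne ξ)
    (hξT : pT.base ξ = genericPoint T) (hin : Y.InSupp ξ) : E.InSupp (pC.base ξ) := by
  by_contra hnot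
  obtain ⟨x, τ, hsp, hnA⟩ := S.dense' ξ (pC.base ⁻¹' {c | E.InSupp c})
    ((isClosed_setOf_inSupp hE).preimage pC.continuous) hnot
  have hx : ¬ E.InSupp (cx x) := by
    intro h
    apply hnA
    show E.InSupp (pC.base ((jx x).base τ))
    rw [S.jx_pC x τ]; exact h
  exact not_hSupp_section S hE1 hNB hY hYh hcls x hx τ ⟨ξ, hξ, hξT, hin, hsp⟩

/-- **(b)** `W = Y - pr_C^* E` is a unit at every horizontal height-one point. -/
theorem isUnitAt_of_horizontal (S : IsCubeLike pC pT i j cx jx Ax) {E : Fam C}
    (hE : E.IsCartier)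
    (hE1 : ∀ E' : Fam C, E'.IsCartier → E'.IsEffective → E'.LinEquiv E → E'.Same E)
    (hNB : ∀ t ∈ Ax, ∀ Y : Fam X, Y.IsCartier → HorizEff pT Y → VertUnitAlong pT i Y t →
      (Fam.pullc (i t) Y).LinEquiv E → ¬ Y.InSupp ((i t).base (genericPoint C)))
    {W : Fam X} (hW : W.IsCartier) (hYh : HorizEff pT (W * Fam.pullback pC E))
    (h1 : ∀ t ∈ Ax, (Fam.pullc (i t) W).LinEquiv 1) (ξ : X) (hξ : IsHtOne ξ)
    (hξT : pT.base ξ = genericPoint T) :
    IsUnitAt ξ ((W ξ : (X.functionField)ˣ) : X.functionField) := by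
  have SP := S.prod
  have hEgen : ¬ E.InSupp (pC.base (genericPoint X)) := by
    rw [SP.pC_gen]; exact not_inSupp_genericPoint E
  have hPE : (Fam.pullback pC E).IsCartier := pullback_isCartier pC hE hEgen
  have hY : (W * Fam.pullback pC E).IsCartier := isCartier_mul hW hPE
  have hYval : ∀ x : X, (((W * Fam.pullback pC E) x : (X.functionField)ˣ) : X.functionField) =
      ((W x : (X.functionField)ˣ) : X.functionField) *
        ((Fam.pullback pC E x : (X.functionField)ˣ) : X.functionField) := fun x => by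
    rw [Pi.mul_apply, Units.val_mul]
  have hcls : ∀ t ∈ Ax, (Fam.pullc (i t) (W * Fam.pullback pC E)).LinEquiv E :=
    fun t ht => pullc_fibre_linEquiv SP hE hW t (h1 t ht)
  have hA := inSupp_of_horizontal S hE hE1 hNB hY hYh hcls
  by_cases hξC : pC.base ξ = genericPoint C
  · have hYu : IsUnitAt ξ (((W * Fam.pullback pC E) ξ : (X.functionField)ˣ) :
        X.functionField) := by
      by_contra hin
      have := hA ξ hξ hξT hin
      rw [hξC] at this
      exact not_inSupp_genericPoint E this
    have hPEξ : IsUnitAt ξ ((Fam.pullback pC E ξ : (X.functionField)ˣ) : X.functionField) := by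
      rw [pullback_apply_val pC hE hEgen]
      apply isUnitAt_pullFun pC ξ
      rw [hξC]; exact isUnitAt_genericPoint _
    rw [hYval] at hYu
    exact (isUnitAt_mul_iff_left hPEξ (Units.ne_zero _)).mp hYu
  · obtain ⟨t, ht⟩ := S.ax_nonempty
    obtain ⟨u, hu, hv⟩ := exists_modified S hY t
    have hY' : (W * Fam.pullback pC E * (Fam.const u)⁻¹).IsCartier := isCartier_moved _ hY u
    have hYh' : HorizEff pT (W * Fam.pullback pC E * (Fam.const u)⁻¹) := horizEff_moved hYh hu
    have hcls' : (Fam.pullc (i t) (W * Fam.pullback pC E * (Fam.const u)⁻¹)).LinEquiv E := by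
      rw [pullc_moved (i t) hY u]; exact hcls t ht
    have hgood := hNB t ht _ hY' hYh' hv hcls'
    have hsameE := same_on_fibre SP hE1 hY' hYh' t hv hgood hcls'
    have hpCx : pC.base ((i t).base (pC.base ξ)) = pC.base ξ := pC_i_base SP.i_pC t _
    have hξx : ξ ⤳ (i t).base (pC.base ξ) :=
      specializes_of_vertical SP.gfC SP.pC_gen hξ hξC (by rw [hpCx])
    obtain ⟨z, hz0, hz⟩ := SP.unifC ξ hξ hξC
    obtain ⟨m, hm⟩ := hz (((W * Fam.pullback pC E * (Fam.const u)⁻¹) ((i t).base (pC.base ξ)) :
      (X.functionField)ˣ) : X.functionField) (Units.ne_zero _)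
    have hz'0 : pullFun pC z ≠ 0 := pullFun_ne_zero_dom pC SP.pC_gen hz0
    -- the modified local equation is a unit at `x = (c, t)`
    have hunit : IsUnitAt ((i t).base (pC.base ξ))
        ((((W * Fam.pullback pC E * (Fam.const u)⁻¹) ((i t).base (pC.base ξ)) :
          (X.functionField)ˣ) : X.functionField) * pullFun pC z ^ m) := by
      apply hartogs_unit SP.hartogs
      intro ξ' hξ' hsp
      by_cases heq : ξ' = ξ
      · rw [heq]; exact hm
      · have hC' : pC.base ξ' = genericPoint C := by
          by_contra hne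
          apply heq
          exact eq_of_vertical SP.gfC SP.pC_gen hξ hξ' hne
            (by have := map_specializes pC hsp; rwa [hpCx] at this)
        have hz' : IsUnitAt ξ' (pullFun pC z) := by
          apply isUnitAt_pullFun pC ξ'
          rw [hC']; exact isUnitAt_genericPoint _
        have hY'u : ¬ (W * Fam.pullback pC E * (Fam.const u)⁻¹).InSupp ξ' := by
          by_cases hT' : pT.base ξ' = genericPoint T
          · intro hin
            have hinY := (moved_inSupp_iff _ u (hu ξ' hT')).mp hin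
            have := hA ξ' hξ' hT' hinY
            rw [hC'] at this
            exact not_inSupp_genericPoint E this
          · rw [not_inSupp_iff]
            apply hv ξ' hξ' hT'
            have := map_specializes pT hsp
            rwa [SP.i_pT t (pC.base ξ)] at this
        have hYx := (isUnitAt_apply_iff hY' hsp).mpr (not_inSupp_iff.mp hY'u)
        exact isUnitAt_mul hYx (isUnitAt_zpow hz' m)
    have hc1 := isUnitAt_pullFun (i t) (pC.base ξ) hunit
    have hω : pC.base ((i t).base (genericPoint C)) = genericPoint C := pC_i_base SP.i_pC t _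
    have hz'ω : IsUnitAt ((i t).base (genericPoint C)) (pullFun pC z) := by
      apply isUnitAt_pullFun pC
      rw [hω]; exact isUnitAt_genericPoint _
    have hYω := isUnitAt_map_genericPoint (i t) hY' hgood (pC.base ξ)
    rw [pullFun_mul (i t) hYω.1 (isUnitAt_zpow hz'ω m).1] at hc1
    have hzm : pullFun (i t) (pullFun pC z ^ m) = z ^ m := by
      rw [← pullFun_zpow pC SP.pC_gen, pullFun_section (i t) pC (SP.i_pC t)]
    rw [hzm] at hc1
    have hsame := hsameE (pC.base ξ)
    rw [coe_div_units, pullback_apply_val (i t) hY' hgood] at hsame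
    have hne1 := pullFun_apply_ne_zero (i t) hY' hgood (pC.base ξ)
    have hne2 : ((E (pC.base ξ) : (C.functionField)ˣ) : C.functionField) ≠ 0 := Units.ne_zero _
    have hEz : IsUnitAt (pC.base ξ)
        (((E (pC.base ξ) : (C.functionField)ˣ) : C.functionField) * z ^ m) := by
      have h3 := isUnitAt_mul hc1 (isUnitAt_inv hsame)
      have h4 : pullFun (i t) (((W * Fam.pullback pC E * (Fam.const u)⁻¹)
          ((i t).base (pC.base ξ)) : (X.functionField)ˣ) : X.functionField) * z ^ m *
          (pullFun (i t) (((W * Fam.pullback pC E * (Fam.const u)⁻¹)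
          ((i t).base (pC.base ξ)) : (X.functionField)ˣ) : X.functionField) /
            ((E (pC.base ξ) : (C.functionField)ˣ) : C.functionField))⁻¹ =
          ((E (pC.base ξ) : (C.functionField)ˣ) : C.functionField) * z ^ m := by
        field_simp
      rwa [h4] at h3
    have hEz' := isUnitAt_pullFun pC ξ hEz
    rw [pullFun_mul_dom pC SP.pC_gen, pullFun_zpow pC SP.pC_gen] at hEz'
    have hPEξ : ((Fam.pullback pC E ξ : (X.functionField)ˣ) : X.functionField) =
        pullFun pC ((E (pC.base ξ) : (C.functionField)ˣ) : C.functionField) :=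
      pullback_apply_val pC hE hEgen ξ
    rw [← hPEξ] at hEz'
    have hYξ : IsUnitAt ξ ((((W * Fam.pullback pC E * (Fam.const u)⁻¹) ξ :
        (X.functionField)ˣ) : X.functionField) * pullFun pC z ^ m) := by
      have h3 := isCartier_isUnitAt_of_specializes hY' hξx
      have h5 := isUnitAt_mul h3 hm
      rw [coe_div_units] at h5
      have hne3 : (((W * Fam.pullback pC E * (Fam.const u)⁻¹) ((i t).base (pC.base ξ)) :
          (X.functionField)ˣ) : X.functionField) ≠ 0 := Units.ne_zero _
      have h6 : (((W * Fam.pullback pC E * (Fam.const u)⁻¹) ξ : (X.functionField)ˣ) :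
          X.functionField) /
          (((W * Fam.pullback pC E * (Fam.const u)⁻¹) ((i t).base (pC.base ξ)) :
            (X.functionField)ˣ) : X.functionField) *
          ((((W * Fam.pullback pC E * (Fam.const u)⁻¹) ((i t).base (pC.base ξ)) :
            (X.functionField)ˣ) : X.functionField) * pullFun pC z ^ m) =
          (((W * Fam.pullback pC E * (Fam.const u)⁻¹) ξ : (X.functionField)ˣ) :
            X.functionField) * pullFun pC z ^ m := by
        field_simp
      rwa [h6] at h5
    have h7 := isUnitAt_mul (isUnitAt_div hYξ hEz') (hu ξ hξT)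
    have h8 : (((W * Fam.pullback pC E * (Fam.const u)⁻¹) ξ : (X.functionField)ˣ) :
        X.functionField) * pullFun pC z ^ m /
        (((Fam.pullback pC E ξ : (X.functionField)ˣ) : X.functionField) * pullFun pC z ^ m) *
        (u : X.functionField) = ((W ξ : (X.functionField)ˣ) : X.functionField) := by
      rw [moved_val, hYval]
      have hne4 : ((Fam.pullback pC E ξ : (X.functionField)ˣ) : X.functionField) ≠ 0 :=
        Units.ne_zero _
      have hne5 : pullFun pC z ^ m ≠ 0 := zpow_ne_zero m hz'0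
      have hne6 : (u : X.functionField) ≠ 0 := Units.ne_zero _
      field_simp
    rwa [h8] at h7

/-- **Abstract cube theorem, positive case.** -/
theorem cube3_of_horizEff (S : IsCubeLike pC pT i j cx jx Ax) {E : Fam C} (hE : E.IsCartier)
    (hE1 : ∀ E' : Fam C, E'.IsCartier → E'.IsEffective → E'.LinEquiv E → E'.Same E)
    (hNB : ∀ t ∈ Ax, ∀ Y : Fam X, Y.IsCartier → HorizEff pT Y → VertUnitAlong pT i Y t →
      (Fam.pullc (i t) Y).LinEquiv E → ¬ Y.InSupp ((i t).base (genericPoint C)))
    {D : Fam X} (hD : D.IsCartier) (F0 : (X.functionField)ˣ)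
    (hYh : HorizEff pT (D * Fam.const F0 * Fam.pullback pC E))
    (h1 : ∀ t ∈ Ax, (Fam.pullc (i t) D).LinEquiv 1) (h2 : (Fam.pullc j D).LinEquiv 1) :
    D.LinEquiv 1 := by
  have hW : (D * Fam.const F0).IsCartier := isCartier_mul hD (isCartier_const F0)
  have h1' : ∀ t ∈ Ax, (Fam.pullc (i t) (D * Fam.const F0)).LinEquiv 1 := fun t ht => by
    rw [pullc_mul (i t) hD (isCartier_const F0), pullc_const, mul_one]; exact h1 t ht
  have h2' : (Fam.pullc j (D * Fam.const F0)).LinEquiv 1 := by
    rw [pullc_mul j hD (isCartier_const F0), pullc_const, mul_one]; exact h2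
  have hWh := isUnitAt_of_horizontal S hE hE1 hNB hW hYh h1'
  have h3 := linEquiv_one_of_vertical S.prod hW hWh h2'
  exact linEquiv_trans (linEquiv_symm (linEquiv_mul_const D F0)) h3

/-- **Abstract cube theorem** (Step VII CUBE3 of the S26 route): on `X = C × T`, `T = C₂ × C₃`,
a Cartier divisor whose restrictions to the fibres `C × {t}` over the axis points `t ∈ Ax` and
to the section `{c₀} × T` are principal, is principal.
Inputs: the bridge hypotheses `IsCubeLike`, the non-special divisor `E` of `C` with the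
uniqueness property `(C1)`, Riemann's inequality on the generic fibre `(K3)` for `D` or `-D`,
and the no-bad-fibre statement `(NB)` at the axis points (see `nb_of_slice`). -/
theorem cube3 (S : IsCubeLike pC pT i j cx jx Ax) {E : Fam C} (hE : E.IsCartier)
    (hE1 : ∀ E' : Fam C, E'.IsCartier → E'.IsEffective → E'.LinEquiv E → E'.Same E)
    (hNB : ∀ t ∈ Ax, ∀ Y : Fam X, Y.IsCartier → HorizEff pT Y → VertUnitAlong pT i Y t →
      (Fam.pullc (i t) Y).LinEquiv E → ¬ Y.InSupp ((i t).base (genericPoint C)))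
    {D : Fam X} (hD : D.IsCartier)
    (hK3 : ∃ F0 : (X.functionField)ˣ,
      HorizEff pT (D * Fam.const F0 * Fam.pullback pC E) ∨
      HorizEff pT (D⁻¹ * Fam.const F0 * Fam.pullback pC E))
    (h1 : ∀ t ∈ Ax, (Fam.pullc (i t) D).LinEquiv 1) (h2 : (Fam.pullc j D).LinEquiv 1) :
    D.LinEquiv 1 := by
  obtain ⟨F0, hF | hF⟩ := hK3
  · exact cube3_of_horizEff S hE hE1 hNB hD F0 hF h1 h2
  · have h1' : ∀ t ∈ Ax, (Fam.pullc (i t) D⁻¹).LinEquiv 1 := fun t ht => by
      rw [pullc_inv (i t) hD]
      have := linEquiv_inv (h1 t ht)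
      rwa [inv_one] at this
    have h2' : (Fam.pullc j D⁻¹).LinEquiv 1 := by
      rw [pullc_inv j hD]
      have := linEquiv_inv h2
      rwa [inv_one] at this
    have h3 := cube3_of_horizEff S hE hE1 hNB (isCartier_inv hD) F0 hF h1' h2'
    have h4 := linEquiv_inv h3
    rwa [inv_inv, inv_one] at h4

end Main

/-! ### (NB): no bad fibre -/

section NB

variable {X C T : Scheme.{u}} [IsIntegral X] [IsIntegral C] [IsIntegral T] {ι : Type v}
  {κ : Type w} {pC : X ⟶ C} {pT : X ⟶ T} {i : ι → (C ⟶ X)} {j : T ⟶ X}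
  {cx : κ → C} {jx : κ → (T ⟶ X)} {Ax : Set ι}

/-- **(NB).**  Let `Y` be a Cartier family on `X = C × T` which is horizontally effective,
has no vertical component through the fibre over `t`, and whose class on this fibre is the
class of `E` (where `|E| = {E}`).  Then the fibre over `t` is not contained in the support
of `Y`.  Input: slice data over a curve through `t` for every closed point `x` of `C` and
every non-closed, non-generic generization `γ` of `t`. -/
theorem nb_of_slice (S : IsCubeLike pC pT i j cx jx Ax) {E : Fam C} (hE : E.IsCartier)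
    (hE1 : ∀ E' : Fam C, E'.IsCartier → E'.IsEffective → E'.LinEquiv E → E'.Same E)
    (t : ι)
    (hslice : ∀ (x : κ) (γ : T), γ ⤳ pt pT i t → γ ≠ pt pT i t → γ ≠ genericPoint T →
      ∃ (B S' : Scheme.{u}) (_ : IsIntegral B) (_ : IsIntegral S') (ν : B ⟶ T) (μ : S' ⟶ X)
        (pB : S' ⟶ B) (i' : C ⟶ S') (s : B ⟶ S'),
        IsSlice pT (i t) (jx x) (cx x) γ ν μ pB i' s)
    {Y : Fam X} (hY : Y.IsCartier) (hYh : HorizEff pT Y) (hv : VertUnitAlong pT i Y t)
    (hcls : (Fam.pullc (i t) Y).LinEquiv E) :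
    ¬ Y.InSupp ((i t).base (genericPoint C)) := by
  intro hbad
  have SP := S.prod
  -- Step 1: a closed point `x` of `C` outside `Supp E` whose section is not in `Supp Y`
  obtain ⟨x, τ, -, hnA⟩ := S.dense' (genericPoint X)
    ({y | Y.InSupp y} ∪ pC.base ⁻¹' {c | E.InSupp c})
    ((isClosed_setOf_inSupp hY).union ((isClosed_setOf_inSupp hE).preimage pC.continuous))
    (by
      rintro (h | h)
      · exact not_inSupp_genericPoint Y h
      · have h' : E.InSupp (pC.base (genericPoint X)) := h
        rw [SP.pC_gen] at h'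
        exact not_inSupp_genericPoint E h')
  have hx : ¬ E.InSupp (cx x) := by
    intro h
    apply hnA
    right
    show E.InSupp (pC.base ((jx x).base τ))
    rw [S.jx_pC x τ]; exact h
  have hζ : ¬ Y.InSupp ((jx x).base (genericPoint T)) :=
    not_inSupp_of_specializes hY
      (map_specializes (jx x) (DIV.H2384.genericPoint_specializes τ)) (fun h => hnA (Or.inl h))
  -- Step 2: Krull on `T` at `t`
  have hz : (jx x).base (pt pT i t) = (i t).base (cx x) := S.jx_i x t
  have hinz : Y.InSupp ((jx x).base (pt pT i t)) := by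
    rw [hz]
    exact inSupp_of_specializes hY
      (map_specializes (i t) (DIV.H2384.genericPoint_specializes (cx x))) hbad
  have hmem : ((Y ((jx x).base (pt pT i t)) : (X.functionField)ˣ) : X.functionField) ∈
      localRing X ((jx x).base (pt pT i t)) := by
    rw [hz]; exact eff_along_fibre SP hY hYh t hv (cx x)
  have hh0 := pullFun_apply_ne_zero (jx x) hY hζ (pt pT i t)
  have hhmem := pullFun_mem_localRing (jx x) (pt pT i t) hmem
  have hhnu : ¬ IsUnitAt (pt pT i t) (pullFun (jx x)
      ((Y ((jx x).base (pt pT i t)) : (X.functionField)ˣ) : X.functionField)) := by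
    intro hunit
    exact hinz (isUnitAt_of_isUnitAt_pullFun (jx x) (pt pT i t) hmem hunit hh0)
  obtain ⟨γ, hγsp, hγne, hγnu⟩ := S.krull t _ hhmem hh0 hhnu
  have hγgen : γ ≠ genericPoint T := by
    rintro rfl
    exact hγnu (isUnitAt_genericPoint _)
  have hspγ : (jx x).base γ ⤳ (jx x).base (pt pT i t) := map_specializes (jx x) hγsp
  have hinγ : Y.InSupp ((jx x).base γ) := by
    intro hunit
    apply hγnu
    exact isUnitAt_pullFun (jx x) γ ((isUnitAt_apply_iff hY hspγ).mpr hunit)
  -- Step 3: the slice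
  obtain ⟨B, S', _, _, ν, μ, pB, i', s, hsl⟩ := hslice x γ hγsp hγne hγgen
  have hμi : ∀ c : C, μ.base (i'.base c) = (i t).base c := fun c => by
    have h : (i' ≫ μ).base c = (i t).base c := by rw [hsl.i'_μ]
    exact h
  have hμgenT : pT.base (μ.base (genericPoint S')) = γ := by
    have h : (μ ≫ pT).base (genericPoint S') = (pB ≫ ν).base (genericPoint S') := by
      rw [hsl.μ_pT]
    have h' : pT.base (μ.base (genericPoint S')) = ν.base (pB.base (genericPoint S')) := h
    rw [h', hsl.pB_gen, hsl.ν_gen]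
  have hgenS : ¬ Y.InSupp (μ.base (genericPoint S')) := by
    rw [not_inSupp_iff]
    apply hv _ hsl.μ_gen_htOne
    · rw [hμgenT]; exact hγgen
    · rw [hμgenT]; exact hγsp
  -- Step 4: the pulled back family on `S'` and its modification along the fibre `i'`
  have hYS : (Fam.pullback μ Y).IsCartier := pullback_isCartier μ hY hgenS
  have hYSval : ∀ ξ : S', ((Fam.pullback μ Y ξ : (S'.functionField)ˣ) : S'.functionField) =
      pullFun μ ((Y (μ.base ξ) : (X.functionField)ˣ) : X.functionField) :=
    pullback_apply_val μ hY hgenS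
  obtain ⟨π, hπ0, hπ⟩ := hsl.unif
  obtain ⟨m, hm⟩ := hπ ((Fam.pullback μ Y (i'.base (genericPoint C)) : (S'.functionField)ˣ) :
    S'.functionField) (Units.ne_zero _)
  have hπ'0 : pullFun pB π ≠ 0 := pullFun_ne_zero_dom pB hsl.pB_gen hπ0
  have hw0 : pullFun pB π ^ m ≠ 0 := zpow_ne_zero m hπ'0
  have hH : (Fam.pullback μ Y * Fam.const (Units.mk0 _ hw0)).IsCartier :=
    isCartier_mul hYS (isCartier_const _)
  have hHval : ∀ ξ : S', (((Fam.pullback μ Y * Fam.const (Units.mk0 _ hw0)) ξ :
      (S'.functionField)ˣ) : S'.functionField) =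
      ((Fam.pullback μ Y ξ : (S'.functionField)ˣ) : S'.functionField) * pullFun pB π ^ m :=
    fun ξ => by rw [Pi.mul_apply, Units.val_mul]; rfl
  have hHφ : ¬ (Fam.pullback μ Y * Fam.const (Units.mk0 _ hw0)).InSupp
      (i'.base (genericPoint C)) := by
    rw [not_inSupp_iff, hHval]; exact hm
  have hπunit : ∀ ξ : S', pB.base ξ = genericPoint B → IsUnitAt ξ (pullFun pB π) :=
    fun ξ hB => isUnitAt_pullFun pB ξ (by rw [hB]; exact isUnitAt_genericPoint _)
  -- `Y` is regular at every point `μ ξ` above a point of the fibre over `t`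
  have hYreg : ∀ (c : C) (y : X), y ⤳ (i t).base c →
      ((Y y : (X.functionField)ˣ) : X.functionField) ∈ localRing X y := by
    intro c y hsp
    rw [← mem_localRing_apply_iff hY hsp]
    exact localRing_le_of_specializes hsp (eff_along_fibre SP hY hYh t hv c)
  -- (b) the modified family is effective along the fibre `i'`
  have hHeff : ∀ c : C, (((Fam.pullback μ Y * Fam.const (Units.mk0 _ hw0)) (i'.base c) :
      (S'.functionField)ˣ) : S'.functionField) ∈ localRing S' (i'.base c) := by
    intro c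
    apply hsl.hartogs
    intro ξ hξ hsp
    rw [mem_localRing_apply_iff hH hsp]
    by_cases hB : pB.base ξ = genericPoint B
    · rw [hHval]
      refine Subring.mul_mem _ ?_ (isUnitAt_zpow (hπunit ξ hB) m).1
      rw [hYSval]
      apply pullFun_mem_localRing μ ξ
      apply hYreg c
      rw [← hμi c]; exact map_specializes μ hsp
    · rw [hsl.fibre_unique c ξ hξ hB hsp]
      exact (not_inSupp_iff.mp hHφ).1
  -- (d) the section `s` lies in the support
  have hμδ : μ.base (s.base (genericPoint B)) = (jx x).base γ := by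
    have h : (s ≫ μ).base (genericPoint B) = (ν ≫ jx x).base (genericPoint B) := by
      rw [hsl.s_μ]
    have h' : μ.base (s.base (genericPoint B)) = (jx x).base (ν.base (genericPoint B)) := h
    rw [h', hsl.ν_gen]
  have hpBδ : pB.base (s.base (genericPoint B)) = genericPoint B := by
    have h : (s ≫ pB).base (genericPoint B) = genericPoint B := by rw [hsl.s_pB]; rfl
    exact h
  have hYSδ : (Fam.pullback μ Y).InSupp (s.base (genericPoint B)) := by
    intro hunit
    rw [hYSval] at hunit
    apply hinγ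
    rw [← hμδ]
    refine isUnitAt_of_isUnitAt_pullFun μ _ ?_ hunit (pullFun_apply_ne_zero μ hY hgenS _)
    apply hYreg (cx x)
    rw [hμδ, ← hz]; exact hspγ
  have hHδ : (Fam.pullback μ Y * Fam.const (Units.mk0 _ hw0)).InSupp
      (s.base (genericPoint B)) := by
    intro hunit
    rw [hHval] at hunit
    exact hYSδ ((isUnitAt_mul_iff_left (isUnitAt_zpow (hπunit _ hpBδ) m) hw0).mp hunit)
  obtain ⟨b₀, hb₀⟩ := hsl.meets
  have hHx : (Fam.pullback μ Y * Fam.const (Units.mk0 _ hw0)).InSupp (i'.base (cx x)) := by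
    rw [← hb₀]
    exact inSupp_of_specializes hH
      (map_specializes s (DIV.H2384.genericPoint_specializes b₀)) hHδ
  -- (e) restriction to the fibre `i'`
  have hE1c := pullback_isCartier i' hH hHφ
  have hE1e : (Fam.pullback i' (Fam.pullback μ Y * Fam.const (Units.mk0 _ hw0))).IsEffective :=
    fun c => by
      rw [pullback_apply_val i' hH hHφ]
      exact pullFun_mem_localRing i' c (hHeff c)
  have hE1l : (Fam.pullback i' (Fam.pullback μ Y * Fam.const (Units.mk0 _ hw0))).LinEquiv E := by
    have a1 := pullc_linEquiv_pullback i' hH hHφ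
    have a2 : Fam.pullc i' (Fam.pullback μ Y * Fam.const (Units.mk0 _ hw0)) =
        Fam.pullc i' (Fam.pullback μ Y) := by
      rw [pullc_mul i' hYS (isCartier_const _), pullc_const, mul_one]
    have a3 : (Fam.pullc μ Y).LinEquiv (Fam.pullback μ Y) := pullc_linEquiv_pullback μ hY hgenS
    have a4 := pullc_linEquiv i' (pullc_isCartier μ hY) hYS a3
    have a5 : Fam.pullc i' (Fam.pullc μ Y) = Fam.pullc (i t) Y := by
      rw [← pullc_comp i' μ hY, hsl.i'_μ]
    rw [a5] at a4
    rw [a2] at a1
    exact linEquiv_trans (linEquiv_symm a1) (linEquiv_trans (linEquiv_symm a4) hcls)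
  have hsameE := hE1 _ hE1c hE1e hE1l
  have hE1x : (Fam.pullback i' (Fam.pullback μ Y * Fam.const (Units.mk0 _ hw0))).InSupp
      (cx x) := by
    intro hunit
    rw [pullback_apply_val i' hH hHφ] at hunit
    exact hHx (isUnitAt_of_isUnitAt_pullFun i' (cx x) (hHeff (cx x)) hunit
      (pullFun_apply_ne_zero i' hH hHφ (cx x)))
  exact hx ((inSupp_congr hsameE (cx x)).mp hE1x)

/-- **Abstract cube theorem with (NB) discharged by slices.** -/
theorem cube3_of_slices (S : IsCubeLike pC pT i j cx jx Ax) {E : Fam C} (hE : E.IsCartier)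
    (hE1 : ∀ E' : Fam C, E'.IsCartier → E'.IsEffective → E'.LinEquiv E → E'.Same E)
    (hslice : ∀ t ∈ Ax, ∀ (x : κ) (γ : T), γ ⤳ pt pT i t → γ ≠ pt pT i t →
      γ ≠ genericPoint T →
      ∃ (B S' : Scheme.{u}) (_ : IsIntegral B) (_ : IsIntegral S') (ν : B ⟶ T) (μ : S' ⟶ X)
        (pB : S' ⟶ B) (i' : C ⟶ S') (s : B ⟶ S'),
        IsSlice pT (i t) (jx x) (cx x) γ ν μ pB i' s)
    {D : Fam X} (hD : D.IsCartier)
    (hK3 : ∃ F0 : (X.functionField)ˣ,
      HorizEff pT (D * Fam.const F0 * Fam.pullback pC E) ∨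
      HorizEff pT (D⁻¹ * Fam.const F0 * Fam.pullback pC E))
    (h1 : ∀ t ∈ Ax, (Fam.pullc (i t) D).LinEquiv 1) (h2 : (Fam.pullc j D).LinEquiv 1) :
    D.LinEquiv 1 :=
  cube3 S hE hE1
    (fun t ht _ hY hYh hv hcls => nb_of_slice S hE hE1 t (hslice t ht) hY hYh hv hcls)
    hD hK3 h1 h2

end NB

end

end Fermat.Agent.S26.CUBE3.H8423
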