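import Mathlib

/-!
# S26 / P15 CUBE3 (and P6 VAR / P11 DICT1): smooth curves have dimension one  (Mathlib only)

* `cd_isMaximal_of_lt`: if `S` is standard smooth of relative dimension `1` over a field, then in
  every chain `P < Q` of primes of `S` the larger one is maximal (étale over `k[X]`, quasi-finite).
* `cd_isClosed_singleton_of_ne_genericPoint`: on an integral scheme, smooth of relative
  dimension one over a field, every point other than the generic point is closed.
* `cd_curveLike`: its irreducible closed subsets are everything or at most one point.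
-/

set_option autoImplicit false

universe u

open CategoryTheory CategoryTheory.Limits AlgebraicGeometry

namespace Fermat.Agent.S26.CUBE3

/-- Over a field `R`, a standard smooth algebra of relative dimension one has Krull dimension at
most one: in a chain `P < Q` of primes, `Q` is maximal. -/
theorem cd_isMaximal_of_lt {R S : Type u} [CommRing R] [CommRing S] (hR : IsField R)
    (f : R →+* S) (hf : f.IsStandardSmoothOfRelativeDimension 1)
    (P Q : Ideal S) [hP : P.IsPrime] [hQ : Q.IsPrime] (hPQ : P < Q) : Q.IsMaximal := by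
  let _ : Field R := hR.toField
  obtain ⟨g, -, hg⟩ := hf.exists_etale_mvPolynomial
  algebraize [g]
  have hA : ∀ I : Ideal (MvPolynomial (Fin 1) R), I ≠ ⊥ → I.IsPrime → I.IsMaximal := by
    have h1 : Ring.KrullDimLE 1 (MvPolynomial (Fin 1) R) := by
      rw [Ring.krullDimLE_iff, MvPolynomial.ringKrullDim_of_isNoetherianRing,
        ringKrullDim_eq_zero_of_field]
      simp
    exact Ring.krullDimLE_one_iff_of_noZeroDivisors.mp h1
  have hqf : Algebra.QuasiFinite (MvPolynomial (Fin 1) R) S := inferInstance
  have hpq : P.under (MvPolynomial (Fin 1) R) ≠ Q.under (MvPolynomial (Fin 1) R) := by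
    intro h
    exact hPQ.ne (Algebra.QuasiFinite.eq_of_le_of_under_eq (R := MvPolynomial (Fin 1) R) P Q
      hPQ.le h)
  have hq0 : Q.under (MvPolynomial (Fin 1) R) ≠ ⊥ := by
    intro h
    apply hpq
    rw [h, eq_bot_iff, ← h]
    exact Ideal.comap_mono hPQ.le
  have hqmax : (Q.under (MvPolynomial (Fin 1) R)).IsMaximal :=
    hA _ hq0 (Ideal.comap_isPrime _ Q)
  obtain ⟨M, hM, hQM⟩ := Ideal.exists_le_maximal Q hQ.ne_top
  have hMp : M.IsPrime := hM.isPrime
  have hu : Q.under (MvPolynomial (Fin 1) R) = M.under (MvPolynomial (Fin 1) R) :=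
    hqmax.eq_of_le (Ideal.comap_ne_top _ hM.ne_top) (Ideal.comap_mono hQM)
  have : Q = M := Algebra.QuasiFinite.eq_of_le_of_under_eq (R := MvPolynomial (Fin 1) R) Q M
    hQM hu
  rw [this]
  exact hM

/-- A standard smooth algebra of relative dimension one over a field is not a field
(it is flat over `k[X]`, hence contains `k[X]`; use Zariski's lemma). -/
theorem cd_not_isField {R S : Type u} [CommRing R] [CommRing S] (hR : IsField R)
    (f : R →+* S) (hf : f.IsStandardSmoothOfRelativeDimension 1) : ¬ IsField S := by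
  intro hS
  let _ : Field R := hR.toField
  let _ : Field S := hS.toField
  obtain ⟨g, hgf, hg⟩ := hf.exists_etale_mvPolynomial
  algebraize [f, g]
  have hflat : Module.Flat (MvPolynomial (Fin 1) R) S := inferInstance
  -- `g` is injective
  have hginj : ∀ a : MvPolynomial (Fin 1) R, a ≠ 0 → g a ≠ 0 := by
    intro a ha hga
    have hreg : IsSMulRegular S a :=
      Module.Flat.isSMulRegular_of_nonZeroDivisors (mem_nonZeroDivisors_of_ne_zero ha)
    have h1 : a • (1 : S) = a • (0 : S) := by
      rw [smul_zero, Algebra.smul_def, mul_one]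
      exact hga
    exact one_ne_zero (hreg h1)
  -- `S` is finite over `R`
  have hss : Algebra.IsStandardSmooth R S :=
    Algebra.IsStandardSmoothOfRelativeDimension.isStandardSmooth 1
  have hft : Algebra.FiniteType R S := inferInstance
  have hfin : Module.Finite R S := finite_of_finite_type_of_isJacobsonRing R S
  obtain ⟨p, hpm, hp⟩ := Algebra.IsIntegral.isIntegral (R := R) (g (MvPolynomial.X 0))
  -- `g` as an `R`-algebra homomorphism
  let g' : MvPolynomial (Fin 1) R →ₐ[R] S :=
    { g with
      commutes' := fun r => by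
        show g (MvPolynomial.C r) = f r
        rw [← hgf]
        rfl }
  have h2 : g' (Polynomial.aeval (MvPolynomial.X 0 : MvPolynomial (Fin 1) R) p) = 0 := by
    rw [← Polynomial.aeval_algHom_apply]
    exact hp
  -- the polynomial `p(X₀)` is nonzero
  let ψ : MvPolynomial (Fin 1) R →ₐ[R] Polynomial R := MvPolynomial.aeval fun _ => Polynomial.X
  have h3 : ψ (Polynomial.aeval (MvPolynomial.X 0 : MvPolynomial (Fin 1) R) p) = p := by
    rw [← Polynomial.aeval_algHom_apply]
    show Polynomial.aeval (MvPolynomial.aeval (fun _ => Polynomial.X) (MvPolynomial.X 0)) p = p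
    rw [MvPolynomial.aeval_X, Polynomial.aeval_X_left_apply]
  have h4 : Polynomial.aeval (MvPolynomial.X 0 : MvPolynomial (Fin 1) R) p ≠ 0 := by
    intro h0
    rw [h0, map_zero] at h3
    exact hpm.ne_zero h3.symm
  exact hginj _ h4 h2

/-- The sections of `Spec K` over an open containing a point form a field. -/
theorem cd_isField_sections {K : Type u} [Field K] (U : (Spec (CommRingCat.of K)).Opens)
    (p : ↥(Spec (CommRingCat.of K))) (hp : p ∈ U) :
    IsField ↑(Γ(Spec (CommRingCat.of K), U)) := by
  have hU : U = ⊤ := by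
    ext q
    simp only [TopologicalSpace.Opens.coe_top, Set.mem_univ, iff_true]
    have : q = p := Subsingleton.elim _ _
    rw [this]
    exact hp
  subst hU
  exact MulEquiv.isField (Field.toIsField K)
    (Scheme.ΓSpecIso (CommRingCat.of K)).commRingCatIsoToRingEquiv.toMulEquiv

/-- On an integral scheme which is smooth of relative dimension one over a field, every point
other than the generic point is closed. -/
theorem cd_isClosed_singleton_of_ne_genericPoint {K : Type u} [Field K] {C : Scheme.{u}}
    (sC : C ⟶ Spec (CommRingCat.of K)) [SmoothOfRelativeDimension 1 sC] [IsIntegral C]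
    (x : C) (hx : x ≠ genericPoint C) : IsClosed ({x} : Set C) := by
  rw [← closure_subset_iff_isClosed]
  intro y hy
  have hxy : x ⤳ y := specializes_iff_mem_closure.mpr hy
  obtain ⟨U, hU, V, hV, hyV, e, hstd⟩ :=
    SmoothOfRelativeDimension.exists_isStandardSmoothOfRelativeDimension (n := 1) (f := sC) y
  have hxV : x ∈ V := hxy.mem_open V.isOpen hyV
  have hne : Nonempty V := ⟨⟨x, hxV⟩⟩
  have hfield : IsField ↑(Γ(Spec (CommRingCat.of K), U)) := cd_isField_sections U (sC y) (e hyV)
  -- the prime of `x` is nonzero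
  have hPx : (hV.primeIdealOf ⟨x, hxV⟩).asIdeal ≠ ⊥ := by
    intro hb
    apply hx
    have h1 : hV.primeIdealOf ⟨x, hxV⟩ = genericPoint (Spec Γ(C, V)) := by
      rw [genericPoint_eq_bot_of_affine]
      exact PrimeSpectrum.ext hb
    have h2 := hV.primeIdealOf_genericPoint
    have h3 := hV.fromSpec_primeIdealOf ⟨x, hxV⟩
    rw [h1, ← h2, hV.fromSpec_primeIdealOf] at h3
    exact h3.symm
  have hbotp : (⊥ : Ideal ↑(Γ(C, V))).IsPrime := Ideal.isPrime_bot
  have hPxp : (hV.primeIdealOf ⟨x, hxV⟩).asIdeal.IsPrime := (hV.primeIdealOf ⟨x, hxV⟩).isPrime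
  have hmax : (hV.primeIdealOf ⟨x, hxV⟩).asIdeal.IsMaximal :=
    cd_isMaximal_of_lt hfield (sC.appLE U V e).hom hstd ⊥ _ (bot_lt_iff_ne_bot.mpr hPx)
  have hcl : IsClosed ({hV.primeIdealOf ⟨x, hxV⟩} : Set (PrimeSpectrum ↑(Γ(C, V)))) :=
    (PrimeSpectrum.isClosed_singleton_iff_isMaximal _).mpr hmax
  -- transfer along the open embedding `fromSpec`
  have hind : Topology.IsInducing hV.fromSpec := hV.fromSpec.isOpenEmbedding.isInducing
  have h4 := hind.closure_eq_preimage_closure_image {hV.primeIdealOf ⟨x, hxV⟩}
  erw [Set.image_singleton, hV.fromSpec_primeIdealOf ⟨x, hxV⟩, hcl.closure_eq] at h4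
  have h5 : hV.primeIdealOf ⟨y, hyV⟩ ∈ hV.fromSpec ⁻¹' closure ({x} : Set C) := by
    show hV.fromSpec (hV.primeIdealOf ⟨y, hyV⟩) ∈ closure ({x} : Set C)
    rw [hV.fromSpec_primeIdealOf ⟨y, hyV⟩]
    exact hy
  rw [← h4] at h5
  have h6 := congrArg hV.fromSpec (Set.mem_singleton_iff.mp h5)
  rw [hV.fromSpec_primeIdealOf ⟨y, hyV⟩, hV.fromSpec_primeIdealOf ⟨x, hxV⟩] at h6
  exact h6

/-- The generic point of an integral scheme which is smooth of relative dimension one over a
field is not closed (the scheme is not a single point). -/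
theorem cd_not_isClosed_genericPoint {K : Type u} [Field K] {C : Scheme.{u}}
    (sC : C ⟶ Spec (CommRingCat.of K)) [SmoothOfRelativeDimension 1 sC] [IsIntegral C] :
    ¬ IsClosed ({genericPoint C} : Set C) := by
  intro hcl
  obtain ⟨U, hU, V, hV, hηV, e, hstd⟩ :=
    SmoothOfRelativeDimension.exists_isStandardSmoothOfRelativeDimension (n := 1) (f := sC)
      (genericPoint C)
  have hne : Nonempty V := ⟨⟨genericPoint C, hηV⟩⟩
  have hfield : IsField ↑(Γ(Spec (CommRingCat.of K), U)) :=
    cd_isField_sections U (sC (genericPoint C)) (e hηV)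
  apply cd_not_isField hfield (sC.appLE U V e).hom hstd
  rw [Ring.isField_iff_maximal_bot]
  obtain ⟨M, hM⟩ := Ideal.exists_maximal ↑(Γ(C, V))
  have hMp : M.IsPrime := hM.isPrime
  -- the point of `M` is the generic point
  have h1 : hV.fromSpec ⟨M, hMp⟩ ∈ closure ({genericPoint C} : Set C) := by
    rw [(genericPoint_spec C).def]; trivial
  rw [hcl.closure_eq, Set.mem_singleton_iff] at h1
  have h2 := hV.fromSpec_primeIdealOf ⟨genericPoint C, hηV⟩
  rw [hV.primeIdealOf_genericPoint, genericPoint_eq_bot_of_affine] at h2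
  have h3 : (⟨M, hMp⟩ : PrimeSpectrum ↑(Γ(C, V))) = ⊥ :=
    hV.fromSpec.isOpenEmbedding.injective (h1.trans h2.symm)
  have h4 : M = ⊥ := congrArg PrimeSpectrum.asIdeal h3
  rw [← h4]
  exact hM

/-- **Curve-like**: irreducible closed subsets of a smooth integral curve are everything or at
most one point. -/
theorem cd_curveLike {K : Type u} [Field K] {C : Scheme.{u}}
    (sC : C ⟶ Spec (CommRingCat.of K)) [SmoothOfRelativeDimension 1 sC] [IsIntegral C]
    (Z : Set C) (hZc : IsClosed Z) (hZi : IsIrreducible Z) : Z = Set.univ ∨ Z.Subsingleton := by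
  have hgen : IsGenericPoint hZi.genericPoint Z := by
    have := hZi.isGenericPoint_genericPoint_closure
    rwa [hZc.closure_eq] at this
  by_cases h : hZi.genericPoint = genericPoint C
  · left
    rw [← hgen.def, h, (genericPoint_spec C).def]
  · right
    have hcl := cd_isClosed_singleton_of_ne_genericPoint sC _ h
    rw [← hgen.def, hcl.closure_eq]
    exact Set.subsingleton_singleton

end Fermat.Agent.S26.CUBE3
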