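import Fermat.Agent.S26.CUBE3.Core8423
import Fermat.Agent.S26.H2925.CxT
import Fermat.Agent.S26.Curves.CurveThrough
import Fermat.Agent.S26.Curves.G4b
import Fermat.Agent.S26.Curves.H1185.Trdeg
import Fermat.Agent.S26.SETUP.SmoothNormal

/-!
# S26 / P15 CUBE3, leaf CL5: slice data `IsSlice` for the concrete product (helper2204)

For `X = C ×_K T` (`T` a proper surface), a `K`-point `t` of `T`, a `K`-point `x` of `C` and a
non-closed, non-generic generization `γ` of `t`, we construct the slice data of
`CUBE3/Core8423.lean` (helper8423): a smooth proper curve `B` with `ν : B ⟶ T`, `ν η_B = γ`,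
a `K`-point `b₀` over `t`, `S' = C ×_K B`, `μ = id × ν`, the fibre `i' = sliceL sC b₀` and the
section `s = sliceR x sB`.

Inputs: helper8685 `Curves/CurveThrough.lean` (P8: smooth proper curve through a point inside an
irreducible closed set), P8 `trdegK` calculus (dimension), helper2925 `H2925/CxT.lean`
(`isProductLike_prod`), helper5416 generization dictionary, frozen P6 exports of `Geom.lean`.
-/

set_option autoImplicit false

universe u

open CategoryTheory CategoryTheory.Limits AlgebraicGeometry

namespace Fermat.Agent.S26.CUBE3.H2204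

open Fermat.Agent.S26 Fermat.Agent.S26.DIV.H2384 Fermat.Agent.S26.SEESAW.H7004
  Fermat.Agent.S26.CUBE3.H8423 Fermat.Agent.S26.Curves

noncomputable section

/-! ### Dimension theory via `trdegK` (P8 vocabulary) -/

section Dim

variable {K : Type u} [Field K]

/-- The closure of a point is the range of a closed immersion from an integral scheme. -/
theorem exists_closure_model {X : Scheme.{u}} (x : X) :
    ∃ (V : Scheme.{u}) (i : V ⟶ X) (_ : IsIntegral V), IsClosedImmersion i ∧
      Set.range i = closure {x} :=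
  r6_exists_integral_closed (closure {x}) isIrreducible_singleton.closure isClosed_closure

theorem trdegK_lt_of_specializes {X : Scheme.{u}} (f : X ⟶ Spec (.of K)) [LocallyOfFiniteType f]
    {V W : Scheme.{u}} (i : V ⟶ X) (j : W ⟶ X) [IsIntegral V] [IsIntegral W]
    [IsClosedImmersion i] [IsClosedImmersion j] {a b : X}
    (hi : Set.range i = closure {a}) (hj : Set.range j = closure {b}) (hab : a ⤳ b)
    (hne : a ≠ b) : trdegK (j ≫ f) < trdegK (i ≫ f) := by
  have hsub : Set.range j ⊆ Set.range i := by
    rw [hi, hj]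
    exact closure_minimal (Set.singleton_subset_iff.2 (specializes_iff_mem_closure.1 hab))
      isClosed_closure
  obtain ⟨l, hl⟩ := g5_lift j i hsub
  have hlci : IsClosedImmersion l := by
    have : IsClosedImmersion (l ≫ i) := by rw [hl]; infer_instance
    exact IsClosedImmersion.of_comp_isClosedImmersion l i
  have hrange : Set.range l ≠ Set.univ := by
    intro h
    apply hne
    have h2 : Set.range j = Set.range i := by
      apply subset_antisymm hsub
      rintro _ ⟨v, rfl⟩
      obtain ⟨w, rfl⟩ : v ∈ Set.range l := by rw [h]; trivial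
      exact ⟨w, by rw [← hl]; rfl⟩
    rw [hi, hj] at h2
    have h1 : b ⤳ a := by
      rw [specializes_iff_mem_closure, h2]
      exact subset_closure rfl
    exact (hab.antisymm h1).eq
  have h3 := g5_trdegK_lt (i ≫ f) l hrange
  have h4 : trdegK (l ≫ i ≫ f) = trdegK (j ≫ f) := by
    subst hl
    rfl
  rwa [h4] at h3

theorem trdegK_lt_of_ne_genericPoint {X : Scheme.{u}} (f : X ⟶ Spec (.of K))
    [LocallyOfFiniteType f] [IsIntegral X] {V : Scheme.{u}} (i : V ⟶ X) [IsIntegral V]
    [IsClosedImmersion i] {a : X} (hi : Set.range i = closure {a}) (ha : a ≠ genericPoint X) :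
    trdegK (i ≫ f) < trdegK f := by
  apply g5_trdegK_lt f i
  rw [hi]
  intro h
  apply ha
  have h1 : IsGenericPoint a (⊤ : Set X) := h
  exact h1.eq (genericPoint_spec X)

/-- In a surface there is no chain `η ≠ a ⤳ b ⤳ c` of three distinct points. -/
theorem no_chain_of_trdegK_le_two {X : Scheme.{u}} (f : X ⟶ Spec (.of K))
    [LocallyOfFiniteType f] [IsIntegral X] (hdim : trdegK f ≤ 2) {a b c : X}
    (hab : a ⤳ b) (hbc : b ⤳ c) (h1 : a ≠ b) (h2 : b ≠ c) (ha : a ≠ genericPoint X) : False := by
  obtain ⟨Va, ia, _, _, hia⟩ := exists_closure_model a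
  obtain ⟨Vb, ib, _, _, hib⟩ := exists_closure_model b
  obtain ⟨Vc, ic, _, _, hic⟩ := exists_closure_model c
  have l1 := trdegK_lt_of_ne_genericPoint f ia hia ha
  have l2 := trdegK_lt_of_specializes f ia ib hia hib hab h1
  have l3 := trdegK_lt_of_specializes f ib ic hib hic hbc h2
  have h3 : trdegK f < Cardinal.aleph0 :=
    lt_of_le_of_lt hdim (by exact_mod_cast Cardinal.natCast_lt_aleph0 (n := 2))
  obtain ⟨n3, e3⟩ := Cardinal.lt_aleph0.1 h3
  obtain ⟨n2, e2⟩ := Cardinal.lt_aleph0.1 (l1.trans h3)
  obtain ⟨n1, e1⟩ := Cardinal.lt_aleph0.1 (l2.trans (l1.trans h3))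
  obtain ⟨n0, e0⟩ := Cardinal.lt_aleph0.1 (l3.trans (l2.trans (l1.trans h3)))
  rw [e3] at hdim l1
  rw [e2] at l1 l2
  rw [e1] at l2 l3
  rw [e0] at l3
  have k0 : n3 ≤ 2 := by exact_mod_cast hdim
  have k1 : n2 < n3 := by exact_mod_cast l1
  have k2 : n1 < n2 := by exact_mod_cast l2
  have k3 : n0 < n1 := by exact_mod_cast l3
  omega

/-- In a curve there is no chain `η ≠ a ⤳ b` of two distinct points. -/
theorem no_chain_of_trdegK_le_one {X : Scheme.{u}} (f : X ⟶ Spec (.of K))
    [LocallyOfFiniteType f] [IsIntegral X] (hdim : trdegK f ≤ 1) {a b : X}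
    (hab : a ⤳ b) (h1 : a ≠ b) (ha : a ≠ genericPoint X) : False := by
  obtain ⟨Va, ia, _, _, hia⟩ := exists_closure_model a
  obtain ⟨Vb, ib, _, _, hib⟩ := exists_closure_model b
  have l1 := trdegK_lt_of_ne_genericPoint f ia hia ha
  have l2 := trdegK_lt_of_specializes f ia ib hia hib hab h1
  have h3 : trdegK f < Cardinal.aleph0 :=
    lt_of_le_of_lt hdim (by exact_mod_cast Cardinal.natCast_lt_aleph0 (n := 1))
  obtain ⟨n3, e3⟩ := Cardinal.lt_aleph0.1 h3
  obtain ⟨n2, e2⟩ := Cardinal.lt_aleph0.1 (l1.trans h3)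
  obtain ⟨n1, e1⟩ := Cardinal.lt_aleph0.1 (l2.trans (l1.trans h3))
  rw [e3] at hdim l1
  rw [e2] at l1 l2
  rw [e1] at l2
  have k0 : n3 ≤ 1 := by exact_mod_cast hdim
  have k1 : n2 < n3 := by exact_mod_cast l1
  have k2 : n1 < n2 := by exact_mod_cast l2
  omega

/-- A point with a proper specialisation is not closed. -/
theorem exists_specializes_ne_of_not_isClosed {X : Scheme.{u}} (a : X)
    (ha : ¬ IsClosed ({a} : Set X)) : ∃ b : X, a ⤳ b ∧ a ≠ b := by
  by_contra hcon
  apply ha
  have : closure ({a} : Set X) = {a} := by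
    apply subset_antisymm
    · intro b hb
      by_contra hne
      exact hcon ⟨b, specializes_iff_mem_closure.2 hb, fun h => hne (h ▸ rfl)⟩
    · exact subset_closure
  rw [← this]
  exact isClosed_closure

/-- `trdegK f = g` for an integral scheme smooth of relative dimension `g` over a perfect field
(helper1185's Mathlib-only computation, in P8 vocabulary). -/
theorem trdegK_eq_of_smooth [PerfectField K] {X : Scheme.{u}}
    (f : X ⟶ Spec (CommRingCat.of K)) [IsIntegral X] (g : ℕ) [SmoothOfRelativeDimension g f] :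
    trdegK f = g := by
  have h := H1185.trdeg_functionField f g
  have h1 : f.appLE ⊤ ⊤ (H1185.le_preimage_top f ⊤) = f.appTop := by
    simp [Scheme.Hom.appLE, Scheme.Hom.appTop]
  have h2 : H1185.toFunctionField f = kToFunctionField f := by
    unfold H1185.toFunctionField H1185.toSection kToFunctionField
    rw [h1]
    rfl
  unfold trdegK
  rw [← h2]
  exact h

end Dim

/-! ### Height-one points: the generic point of the fibre over a height-one point -/

section HtOne

open Fermat.Agent.S26.DIV.Generization5416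

theorem primeOfSpecializes_self {X : Scheme.{u}} (x : X) (h : x ⤳ x) :
    primeOfSpecializes h = IsLocalRing.maximalIdeal (X.presheaf.stalk x) := by
  ext s
  rw [mem_primeOfSpecializes, IsLocalRing.mem_maximalIdeal, mem_nonunits_iff]
  have h1 : X.presheaf.stalkSpecializes h = 𝟙 _ := TopCat.Presheaf.stalkSpecializes_refl _ _
  rw [h1]
  rfl

variable {X B : Scheme.{u}} [IsIntegral X] [IsIntegral B]

/-- Let `p : X ⟶ B` be dominant with stalk maps preserving prime elements, `B` normal.  If `ξ`
lies over a height-one point `β` of `B` and is generic in `p ⁻¹ (closure {β})`, then `ξ` is a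
height-one point of `X`. -/
theorem isHtOne_of_generic_fibre [IsLocallyNoetherian X] [IsLocallyNoetherian B]
    (hnB : ∀ b : B, IsIntegrallyClosed (B.presheaf.stalk b))
    (p : X ⟶ B) (hprime : Fermat.Agent.S26.H4943.StalkPrime p)
    (hdom : p.base (genericPoint X) = genericPoint B)
    (ξ : X) (hβ : IsHtOne (p.base ξ))
    (hgen : ∀ x : X, p.base ξ ⤳ p.base x → ξ ⤳ x) : IsHtOne ξ := by
  have hβ1 : Order.coheight (p.base ξ) = 1 :=
    (Fermat.Agent.S26.CxT2925.isHtOne_iff_coheight _).1 hβ
  rw [Fermat.Agent.S26.CxT2925.isHtOne_iff_coheight]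
  have := hnB (p.base ξ)
  have hdvr : IsDiscreteValuationRing (B.presheaf.stalk (p.base ξ)) :=
    Fermat.Agent.S26.DIV.Hartogs5416.isDiscreteValuationRing_stalk (p.base ξ) hβ1
  obtain ⟨τ, hτ⟩ := IsDiscreteValuationRing.exists_irreducible (B.presheaf.stalk (p.base ξ))
  have hϖ : Prime ((p.stalkMap ξ).hom τ) := hprime ξ τ hτ.prime
  have hP : (Ideal.span {(p.stalkMap ξ).hom τ}).IsPrime :=
    (Ideal.span_singleton_prime hϖ.ne_zero).2 hϖ
  obtain ⟨z, hz, hzP⟩ := exists_specializes_primeOfSpecializes_eq ξ
    (Ideal.span {(p.stalkMap ξ).hom τ})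
  have h1 : ¬ IsUnit (X.presheaf.stalkSpecializes hz ((p.stalkMap ξ).hom τ)) := by
    rw [← mem_primeOfSpecializes, hzP]
    exact Ideal.mem_span_singleton_self _
  have h2 : ¬ IsUnit (B.presheaf.stalkSpecializes (p.base.hom.map_specializes hz) τ) := by
    intro hu
    apply h1
    have h := Scheme.Hom.stalkSpecializes_stalkMap_apply p z ξ hz τ
    have hu' := hu.map (p.stalkMap z).hom
    exact h ▸ hu'
  have hmem : τ ∈ primeOfSpecializes (p.base.hom.map_specializes hz) :=
    (mem_primeOfSpecializes _ τ).2 h2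
  have h3 : primeOfSpecializes (p.base.hom.map_specializes hz) =
      IsLocalRing.maximalIdeal (B.presheaf.stalk (p.base ξ)) := by
    have hne : primeOfSpecializes (p.base.hom.map_specializes hz) ≠ ⊥ := by
      intro h0
      rw [h0] at hmem
      exact hτ.ne_zero (Ideal.mem_bot.1 hmem)
    have hmax : (primeOfSpecializes (p.base.hom.map_specializes hz)).IsMaximal :=
      IsPrime.to_maximal_ideal hne
    exact IsLocalRing.eq_maximalIdeal hmax
  have h4 : p.base z = p.base ξ :=
    eq_of_primeOfSpecializes_eq (p.base.hom.map_specializes hz) (specializes_refl _)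
      (by rw [h3, primeOfSpecializes_self])
  have h5 : ξ ⤳ z := hgen z (by rw [h4])
  have h6 : z = ξ := (hz.antisymm h5).eq
  subst h6
  have h7 := height_primeOfSpecializes hz
  rw [hzP] at h7
  have h8 : (Ideal.span {(p.stalkMap z).hom τ}).height ≤ 1 :=
    Ideal.height_le_one_of_isPrincipal_of_mem_minimalPrimes (Ideal.span {(p.stalkMap z).hom τ}) _
      (by rw [Ideal.minimalPrimes_eq_subsingleton_self]; rfl)
  have h9 : Order.coheight z ≤ 1 := by
    have : ((Ideal.span {(p.stalkMap z).hom τ}).height : WithBot ℕ∞) ≤ 1 := by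
      exact_mod_cast h8
    rw [h7] at this
    exact_mod_cast this
  have h10 : Order.coheight z ≠ 0 := by
    intro h0
    have hmaxz : IsMax z := Order.coheight_eq_zero.1 h0
    have hzη : z = genericPoint X := Fermat.Agent.S26.CxT2925.eq_genericPoint_of_isMax hmaxz
    rw [hzη, hdom] at hβ1
    have : Order.coheight (genericPoint B) = 0 :=
      Order.coheight_eq_zero.2 Fermat.Agent.S26.CxT2925.isMax_genericPoint
    rw [this] at hβ1
    exact zero_ne_one hβ1
  exact le_antisymm h9 (Order.one_le_iff_pos.2 (pos_iff_ne_zero.2 h10))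

end HtOne

/-! ### The slice -/

section Slice

variable {K : Type u} [Field K] [IsAlgClosed K] {C T : Scheme.{u}}
  (sC : C ⟶ Spec (CommRingCat.of K)) (sT : T ⟶ Spec (CommRingCat.of K))

omit [IsAlgClosed K] in
/-- Every point of the fibre `sliceL sC t` lies over `ptOf t`. -/
theorem snd_sliceL_apply (t : Pts sT) (c : C) :
    (pullback.snd sC sT).base ((sliceL sC t).base c) = ptOf t := by
  have h := congrArg (fun φ : C ⟶ T => φ.base c) (CxT2925.sliceL_snd sC sT t)
  simp only [Scheme.Hom.comp_base, TopCat.hom_comp, ContinuousMap.comp_apply] at h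
  rw [h]
  show t.1.base _ = t.1.base _
  congr 1
  exact Subsingleton.elim _ _

omit [IsAlgClosed K] in
/-- `pt` of `Core8423` in the concrete model is `ptOf`. -/
theorem pt_sliceL [IsIntegral C] [IsIntegral T] [IsIntegral (pullback sC sT)] (t : Pts sT) :
    pt (pullback.snd sC sT) (fun t : Pts sT => sliceL sC t) t = ptOf t :=
  snd_sliceL_apply sC sT t (genericPoint C)

/-- `K`-points with the same underlying point are equal. -/
theorem pts_ext [LocallyOfFiniteType sT] (a b : Pts sT) (h : ptOf a = ptOf b) : a = b :=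
  Subtype.ext (ext_of_apply_closedPoint_eq sT a.2 b.2 h)

theorem isClosed_ptOf [LocallyOfFiniteType sT] (a : Pts sT) : IsClosed ({ptOf a} : Set T) :=
  (pointEquivClosedPoint sT a).2

/-- The fibre of `pullback.snd` over the closed point `ptOf t` is the range of `sliceL sC t`. -/
theorem exists_sliceL_eq (t : Pts sT) (y : ↥(pullback sC sT))
    (hy : (pullback.snd sC sT).base y = ptOf t) : ∃ c : C, (sliceL sC t).base c = y := by
  have hr := Fermat.Agent.S26.SEESAW.H1876.range_sliceFst sC sT t.1 t.2
  have hmem : y ∈ (pullback.snd sC sT) ⁻¹' (Set.range t.1) :=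
    ⟨IsLocalRing.closedPoint K, hy.symm⟩
  rw [← hr] at hmem
  exact hmem

/-- **CL5.**  Slice data over a curve through `t` with generic point `γ`. -/
theorem exists_slice (hC : IsSmoothProperCurve sC) [IsIntegral C] [IsIntegral T] [IsProper sT]
    [IsIntegral (pullback sC sT)]
    (hnT : ∀ τ : T, IsIntegrallyClosed (T.presheaf.stalk τ))
    (hdimT : trdegK sT ≤ 2)
    (t : Pts sT) (x : Pts sC) (γ : T)
    (h1 : γ ⤳ ptOf t) (h2 : γ ≠ ptOf t) (h3 : γ ≠ genericPoint T) :
    ∃ (B S' : Scheme.{u}) (_ : IsIntegral B) (_ : IsIntegral S') (ν : B ⟶ T)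
      (μ : S' ⟶ pullback sC sT) (pB : S' ⟶ B) (i' : C ⟶ S') (s : B ⟶ S'),
      IsSlice (pullback.snd sC sT) (sliceL sC t) (sliceR x sT) (ptOf x) γ ν μ pB i' s := by
  have hCp : IsProper sC := hC.proper
  have hCs : SmoothOfRelativeDimension 1 sC := hC.smooth
  have hCsm : Smooth sC := SmoothOfRelativeDimension.smooth 1 sC
  have hcl : IsClosed ({ptOf t} : Set T) := isClosed_ptOf sT t
  -- the curve
  obtain ⟨B, sB, ν, b, hB, hν, hfin, hrange, hnotZ, hνb⟩ :=
    r7_exists_smooth_proper_curve sT (closure {γ}) isIrreducible_singleton.closure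
      isClosed_closure (ptOf t) (specializes_iff_mem_closure.1 h1) hcl
      (fun h => h2 (by
        have : γ ∈ ({ptOf t} : Set T) := h ▸ subset_closure rfl
        exact this))
      {ptOf t} hcl (fun h => h2 (h (subset_closure rfl)))
  have hBint : IsIntegral B := hB.integral
  have hBp : IsProper sB := hB.proper
  have hBs : SmoothOfRelativeDimension 1 sB := hB.smooth
  have hBsm : Smooth sB := SmoothOfRelativeDimension.smooth 1 sB
  have hdimB : trdegK sB ≤ 1 := by
    rw [trdegK_eq_of_smooth sB 1]
    exact_mod_cast le_refl 1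
  -- `γ` is a height-one point and its proper specialisations are closed
  have hγ1 : IsHtOne γ := ⟨h3, fun y hy => by
    by_contra hcon
    push_neg at hcon
    exact no_chain_of_trdegK_le_two sT hdimT hy h1 hcon.1 h2 hcon.2⟩
  have hγcl : ∀ γ' : T, γ ⤳ γ' → γ' ≠ γ → IsClosed ({γ'} : Set T) := by
    intro γ' hs hne
    by_contra hncl
    obtain ⟨c, hc1, hc2⟩ := exists_specializes_ne_of_not_isClosed γ' hncl
    exact no_chain_of_trdegK_le_two sT hdimT hs hc1 (Ne.symm hne) hc2 h3
  -- `ν` maps the generic point of `B` to `γ`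
  have hνgen : ν.base (genericPoint B) = γ := by
    by_contra hne
    have hmem : ν.base (genericPoint B) ∈ closure {γ} := hrange ⟨_, rfl⟩
    have hclosed := hγcl _ (specializes_iff_mem_closure.2 hmem) hne
    have hall : ∀ b' : B, ν.base b' = ν.base (genericPoint B) := by
      intro b'
      have hsp : ν.base (genericPoint B) ⤳ ν.base b' :=
        ν.base.hom.map_specializes ((genericPoint_spec B).specializes trivial)
      have := specializes_iff_mem_closure.1 hsp
      rw [hclosed.closure_eq] at this
      exact this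
    apply hnotZ
    rintro _ ⟨b', rfl⟩
    show ν.base b' = ptOf t
    rw [hall b', ← hall (ptOf b), hνb]
  -- the `K`-point `b` lies over `t`
  have hbt : b.1 ≫ ν = t.1 := by
    have hb2 : (b.1 ≫ ν) ≫ sT = 𝟙 _ := by rw [Category.assoc, hν, b.2]
    have := pts_ext sT ⟨b.1 ≫ ν, hb2⟩ t hνb
    exact congrArg Subtype.val this
  have hclb : IsClosed ({ptOf b} : Set B) := isClosed_ptOf sB b
  -- points of the curve `B`
  have hBpt : ∀ β : B, β ≠ genericPoint B → IsClosed ({β} : Set B) := by
    intro β hβ
    by_contra hncl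
    obtain ⟨c, hc1, hc2⟩ := exists_specializes_ne_of_not_isClosed β hncl
    exact no_chain_of_trdegK_le_one sB hdimB hc1 hc2 hβ
  have hbne : ptOf b ≠ genericPoint B := by
    intro h
    apply hnotZ
    rintro _ ⟨b', rfl⟩
    have hsp : genericPoint B ⤳ b' := (genericPoint_spec B).specializes trivial
    have h' := specializes_iff_mem_closure.1 hsp
    rw [← h, hclb.closure_eq] at h'
    have h'' : b' = ptOf b := h'
    show ν.base b' = ptOf t
    rw [h'', hνb]
  have hbht : IsHtOne (ptOf b) := ⟨hbne, fun y hy => by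
    by_contra hcon
    push_neg at hcon
    exact no_chain_of_trdegK_le_one sB hdimB hy hcon.1 hcon.2⟩
  -- the surface `S' = C × B`
  have hS'int : IsIntegral (pullback sC sB) := g4_isIntegral_pullback sC sB
  have hnC : ∀ c : C, IsIntegrallyClosed (C.presheaf.stalk c) :=
    fun c => Fermat.Agent.S26.SETUP.isIntegrallyClosed_stalk_of_smooth sC c
  have hnB : ∀ c : B, IsIntegrallyClosed (B.presheaf.stalk c) :=
    fun c => Fermat.Agent.S26.SETUP.isIntegrallyClosed_stalk_of_smooth sB c
  have hS'sm : Smooth (pullback.fst sC sB ≫ sC) := inferInstance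
  have hnS' : ∀ c : ↥(pullback sC sB),
      IsIntegrallyClosed ((pullback sC sB).presheaf.stalk c) :=
    fun c => Fermat.Agent.S26.SETUP.isIntegrallyClosed_stalk_of_smooth (pullback.fst sC sB ≫ sC) c
  have PL := CxT2925.isProductLike_prod sC sB hnC hnB hnS' x
  have hnoeT : IsLocallyNoetherian T := LocallyOfFiniteType.isLocallyNoetherian sT
  have hnoeB : IsLocallyNoetherian B := LocallyOfFiniteType.isLocallyNoetherian sB
  have hnoeX : IsLocallyNoetherian (pullback sC sT) :=
    LocallyOfFiniteType.isLocallyNoetherian (pullback.fst sC sT ≫ sC)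
  have hnoeS' : IsLocallyNoetherian (pullback sC sB) :=
    LocallyOfFiniteType.isLocallyNoetherian (pullback.fst sC sB ≫ sC)
  have hgiC : GeometricallyIrreducible sC :=
    Fermat.Agent.S26.SEESAW.H1876.geometricallyIrreducible_of_isAlgClosed sC
  have hopenT : IsOpenMap (pullback.snd sC sT) := (pullback.snd sC sT).isOpenMap
  have hXgen : (pullback.snd sC sT).base (genericPoint ↥(pullback sC sT)) = genericPoint T :=
    CxT2925.map_genericPoint_of_isOpenMap _ hopenT
  -- the morphism `μ = id × ν`
  let μ : pullback sC sB ⟶ pullback sC sT :=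
    pullback.map sC sB sC sT (𝟙 C) ν (𝟙 _) (by simp) (by rw [Category.comp_id, hν])
  have hμfst : μ ≫ pullback.fst sC sT = pullback.fst sC sB := by
    have h := pullback.lift_fst (f := sC) (g := sT) (pullback.fst sC sB ≫ 𝟙 C)
      (pullback.snd sC sB ≫ ν)
      (by rw [Category.comp_id, Category.assoc, hν]; exact pullback.condition)
    exact h.trans (Category.comp_id _)
  have hμsnd : μ ≫ pullback.snd sC sT = pullback.snd sC sB ≫ ν :=
    pullback.lift_snd (f := sC) (g := sT) (pullback.fst sC sB ≫ 𝟙 C)
      (pullback.snd sC sB ≫ ν)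
      (by rw [Category.comp_id, Category.assoc, hν]; exact pullback.condition)
  have hpb : IsPullback μ (pullback.snd sC sB) (pullback.snd sC sT) ν := by
    have hbig : IsPullback (μ ≫ pullback.fst sC sT) (pullback.snd sC sB) sC (ν ≫ sT) := by
      rw [hμfst, hν]
      exact IsPullback.of_hasPullback sC sB
    exact IsPullback.of_right hbig hμsnd (IsPullback.of_hasPullback sC sT)
  -- the fibre over `b`
  have hF1 : ∀ c : C, (pullback.snd sC sB).base ((sliceL sC b).base c) = ptOf b :=
    fun c => snd_sliceL_apply sC sB b c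
  have hF3 : ∀ y : ↥(pullback sC sB), ptOf b ⤳ (pullback.snd sC sB).base y →
      (sliceL sC b).base (genericPoint C) ⤳ y := by
    intro y hy
    have hy' := specializes_iff_mem_closure.1 hy
    rw [hclb.closure_eq] at hy'
    obtain ⟨c, rfl⟩ := exists_sliceL_eq sC sB b y hy'
    exact (sliceL sC b).base.hom.map_specializes ((genericPoint_spec C).specializes trivial)
  have hfibht : IsHtOne ((sliceL sC b).base (genericPoint C)) := by
    apply isHtOne_of_generic_fibre hnB (pullback.snd sC sB)
      (Fermat.Agent.S26.H4943.stalkPrime_snd sC sB) PL.pT_gen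
    · rw [hF1]; exact hbht
    · intro y hy
      rw [hF1] at hy
      exact hF3 y hy
  have hpBgen : (pullback.snd sC sB).base (genericPoint ↥(pullback sC sB)) = genericPoint B :=
    PL.pT_gen
  refine ⟨B, pullback sC sB, hBint, hS'int, ν, μ, pullback.snd sC sB, sliceL sC b,
    sliceR x sB, ?_⟩
  exact
    { i'_μ := by
        apply pullback.hom_ext
        · rw [Category.assoc, hμfst, CxT2925.sliceL_fst, CxT2925.sliceL_fst]
        · rw [Category.assoc, hμsnd, ← Category.assoc, CxT2925.sliceL_snd, CxT2925.sliceL_snd,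
            Category.assoc, hbt]
      s_μ := by
        apply pullback.hom_ext
        · rw [Category.assoc, hμfst, CxT2925.sliceR_fst, Category.assoc, CxT2925.sliceR_fst,
            ← Category.assoc, hν]
        · rw [Category.assoc, hμsnd, ← Category.assoc, CxT2925.sliceR_snd, Category.id_comp,
            Category.assoc, CxT2925.sliceR_snd, Category.comp_id]
      s_pB := CxT2925.sliceR_snd sC sB x
      μ_pT := hμsnd
      ν_gen := hνgen
      pB_gen := hpBgen
      hartogs := PL.hartogs
      μ_gen_htOne := by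
        have hpt : (pullback.snd sC sT).base (μ.base (genericPoint ↥(pullback sC sB))) = γ := by
          have h := congrArg (fun φ : pullback sC sB ⟶ T =>
            φ.base (genericPoint ↥(pullback sC sB))) hμsnd
          simp only [Scheme.Hom.comp_base, TopCat.hom_comp, ContinuousMap.comp_apply] at h
          rw [h, hpBgen, hνgen]
        apply isHtOne_of_generic_fibre hnT (pullback.snd sC sT)
          (Fermat.Agent.S26.H4943.stalkPrime_snd sC sT) hXgen
        · rw [hpt]; exact hγ1
        · intro y hy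
          rw [hpt] at hy
          obtain ⟨ξ₀, hξ₀, hξ₀gen⟩ := CxT2925.hasGenericFibres_of_isOpenMap _ hopenT γ
          have h0 : ξ₀ ⤳ y := hξ₀gen y hy
          obtain ⟨z, hz1, -⟩ := Scheme.Pullback.exists_preimage_pullback
            (f := pullback.snd sC sT) (g := ν) ξ₀ (genericPoint B) (by rw [hξ₀, hνgen])
          have hz : μ.base (hpb.isoPullback.inv.base z) = ξ₀ := by
            have h := congrArg (fun φ : pullback (pullback.snd sC sT) ν ⟶ pullback sC sT =>
              φ.base z) hpb.isoPullback_inv_fst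
            simp only [Scheme.Hom.comp_base, TopCat.hom_comp, ContinuousMap.comp_apply] at h
            rw [h]; exact hz1
          have h4 : μ.base (genericPoint ↥(pullback sC sB)) ⤳ ξ₀ := by
            rw [← hz]
            exact μ.base.hom.map_specializes ((genericPoint_spec _).specializes trivial)
          exact h4.trans h0
      fibre_unique := by
        intro c' ξ hξ hv hsp
        have h4 : (pullback.snd sC sB).base ξ ⤳ ptOf b := by
          have := (pullback.snd sC sB).base.hom.map_specializes hsp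
          rwa [hF1] at this
        have h5 : (pullback.snd sC sB).base ξ = ptOf b := by
          have hc := hBpt _ hv
          have := specializes_iff_mem_closure.1 h4
          rw [hc.closure_eq] at this
          exact this.symm
        have h6 : (sliceL sC b).base (genericPoint C) ⤳ ξ := hF3 ξ (by rw [h5])
        rcases hξ.2 _ h6 with h7 | h7
        · exact h7.symm
        · exfalso
          apply hbne
          rw [← hF1 (genericPoint C), h7, hpBgen]
      unif := PL.unifT _ hfibht (by rw [hF1]; exact hbne)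
      meets := by
        refine ⟨ptOf b, ?_⟩
        have hmor : b.1 ≫ sliceR x sB = x.1 ≫ sliceL sC b := by
          apply pullback.hom_ext
          · rw [Category.assoc, CxT2925.sliceR_fst, ← Category.assoc, b.2, Category.id_comp,
              Category.assoc, CxT2925.sliceL_fst, Category.comp_id]
          · rw [Category.assoc, CxT2925.sliceR_snd, Category.comp_id, Category.assoc,
              CxT2925.sliceL_snd, ← Category.assoc, x.2, Category.id_comp]
        exact congrArg (fun φ : Spec (CommRingCat.of K) ⟶ pullback sC sB =>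
          φ.base (IsLocalRing.closedPoint K)) hmor }

/-- **CL5 in the shape of the hypothesis `hslice` of `Core8423.cube3_of_slices`**
(`ι = Pts sT`, `i = sliceL sC`, `κ = Pts sC`, `jx = sliceR · sT`, `cx = ptOf`). -/
theorem hslice_prod (hC : IsSmoothProperCurve sC) [IsIntegral C] [IsIntegral T] [IsProper sT]
    [IsIntegral (pullback sC sT)]
    (hnT : ∀ τ : T, IsIntegrallyClosed (T.presheaf.stalk τ))
    (hdimT : trdegK sT ≤ 2)
    (t : Pts sT) (x : Pts sC) (γ : T)
    (h1 : γ ⤳ pt (pullback.snd sC sT) (fun t : Pts sT => sliceL sC t) t)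
    (h2 : γ ≠ pt (pullback.snd sC sT) (fun t : Pts sT => sliceL sC t) t)
    (h3 : γ ≠ genericPoint T) :
    ∃ (B S' : Scheme.{u}) (_ : IsIntegral B) (_ : IsIntegral S') (ν : B ⟶ T)
      (μ : S' ⟶ pullback sC sT) (pB : S' ⟶ B) (i' : C ⟶ S') (s : B ⟶ S'),
      IsSlice (pullback.snd sC sT) ((fun t : Pts sT => sliceL sC t) t)
        ((fun x : Pts sC => sliceR x sT) x) ((fun x : Pts sC => ptOf x) x) γ ν μ pB i' s := by
  rw [pt_sliceL] at h1 h2
  exact exists_slice sC sT hC hnT hdimT t x γ h1 h2 h3

end Slice

/-! ### The surface `T = C₂ × C₃` -/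

section Cube

variable {K : Type u} [Field K] [IsAlgClosed K] {C C₂ C₃ : Scheme.{u}}
  (sC : C ⟶ Spec (CommRingCat.of K)) (sC₂ : C₂ ⟶ Spec (CommRingCat.of K))
  (sC₃ : C₃ ⟶ Spec (CommRingCat.of K))

/-- The product of two smooth proper curves has transcendence degree at most two. -/
theorem trdegK_prodS_le_two (hC₂ : IsSmoothProperCurve sC₂) (hC₃ : IsSmoothProperCurve sC₃)
    [IsIntegral C₂] [IsIntegral C₃] [IsIntegral (pullback sC₂ sC₃)] :
    trdegK (prodS sC₂ sC₃) ≤ 2 := by
  have h2p : IsProper sC₂ := hC₂.proper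
  have h3p : IsProper sC₃ := hC₃.proper
  have h2s : SmoothOfRelativeDimension 1 sC₂ := hC₂.smooth
  have h3s : SmoothOfRelativeDimension 1 sC₃ := hC₃.smooth
  have h := g4_trdegK_pullback_le sC₂ sC₃
  rw [trdegK_eq_of_smooth sC₂ 1, trdegK_eq_of_smooth sC₃ 1] at h
  have h' : trdegK (prodS sC₂ sC₃) ≤ ((1 : ℕ) : Cardinal.{u}) + ((1 : ℕ) : Cardinal.{u}) := h
  refine h'.trans ?_
  norm_num

/-- The structure map of the product of two smooth proper curves is smooth. -/
theorem smooth_prodS (hC₂ : IsSmoothProperCurve sC₂) (hC₃ : IsSmoothProperCurve sC₃) :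
    Smooth (prodS sC₂ sC₃) := by
  have h2s : SmoothOfRelativeDimension 1 sC₂ := hC₂.smooth
  have h3s : SmoothOfRelativeDimension 1 sC₃ := hC₃.smooth
  have : Smooth sC₂ := SmoothOfRelativeDimension.smooth 1 sC₂
  have : Smooth sC₃ := SmoothOfRelativeDimension.smooth 1 sC₃
  unfold prodS
  infer_instance

/-- The structure map of the product of two smooth proper curves is proper. -/
theorem isProper_prodS (hC₂ : IsSmoothProperCurve sC₂) (hC₃ : IsSmoothProperCurve sC₃) :
    IsProper (prodS sC₂ sC₃) := by
  have h2p : IsProper sC₂ := hC₂.proper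
  have h3p : IsProper sC₃ := hC₃.proper
  unfold prodS
  infer_instance

/-- **CL5 for the cube**: slices of `C × (C₂ × C₃)` in the exact shape of the hypothesis
`hslice` of `Core8423.cube3_of_slices` (for every `K`-point `t`, in particular on the axes). -/
theorem hslice_cube (hC : IsSmoothProperCurve sC) (hC₂ : IsSmoothProperCurve sC₂)
    (hC₃ : IsSmoothProperCurve sC₃) [IsIntegral C] [IsIntegral C₂] [IsIntegral C₃]
    [IsIntegral (pullback sC₂ sC₃)] [IsIntegral (pullback sC (prodS sC₂ sC₃))]
    (t : Pts (prodS sC₂ sC₃)) (x : Pts sC) (γ : ↥(pullback sC₂ sC₃))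
    (h1 : γ ⤳ pt (pullback.snd sC (prodS sC₂ sC₃))
      (fun t : Pts (prodS sC₂ sC₃) => sliceL sC t) t)
    (h2 : γ ≠ pt (pullback.snd sC (prodS sC₂ sC₃))
      (fun t : Pts (prodS sC₂ sC₃) => sliceL sC t) t)
    (h3 : γ ≠ genericPoint ↥(pullback sC₂ sC₃)) :
    ∃ (B S' : Scheme.{u}) (_ : IsIntegral B) (_ : IsIntegral S') (ν : B ⟶ pullback sC₂ sC₃)
      (μ : S' ⟶ pullback sC (prodS sC₂ sC₃)) (pB : S' ⟶ B) (i' : C ⟶ S') (s : B ⟶ S'),
      IsSlice (pullback.snd sC (prodS sC₂ sC₃))
        ((fun t : Pts (prodS sC₂ sC₃) => sliceL sC t) t)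
        ((fun x : Pts sC => sliceR x (prodS sC₂ sC₃)) x) ((fun x : Pts sC => ptOf x) x)
        γ ν μ pB i' s := by
  have hsm : Smooth (prodS sC₂ sC₃) := smooth_prodS sC₂ sC₃ hC₂ hC₃
  have hpr : IsProper (prodS sC₂ sC₃) := isProper_prodS sC₂ sC₃ hC₂ hC₃
  exact hslice_prod sC (prodS sC₂ sC₃) hC
    (fun τ => Fermat.Agent.S26.SETUP.isIntegrallyClosed_stalk_of_smooth (prodS sC₂ sC₃) τ)
    (trdegK_prodS_le_two sC₂ sC₃ hC₂ hC₃) t x γ h1 h2 h3

end Cube

end

end Fermat.Agent.S26.CUBE3.H2204
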