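import Fermat.Agent.S26.H1665.Cube3Top
import Fermat.Agent.S26.CUBE3.Slice2204
import Fermat.Agent.S26.H2925.CurveDictP12

/-!
# S26 / P15 CUBE3: the frozen export `cube3_curves`, complete (helper2204)

Final assembly of the cube theorem for three smooth proper curves:

* `H1665.cube3_curves_of_slices` (helper1665: `IsCubeLike` for `C × (C₂ × C₃)` + helper8423's
  abstract `cube3_of_slices`), with its two inputs discharged:
* `hSl` (CL5, slices) by `H2204.hslice_cube` (Slice2204.lean);
* `hCI` (CL6, the curve input `(C1) + (K3)`) by `curveInput_final` below, which is helper2925's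
  `riemann_input` without the (unused) fibre hypothesis, fed with the P12 dictionary
  (`curveDict_of_completeCurve`) exactly as in `seesaw_final`.

`cube3_curves_final` has exactly the signature of the frozen export `Fermat.Agent.S26.cube3_curves`.
-/

set_option autoImplicit false

universe u

open CategoryTheory CategoryTheory.Limits AlgebraicGeometry AlgebraicCurve

namespace Fermat.Agent.S26.CUBE3.H2204

open Fermat.Agent.S26 Fermat.Agent.S26.SEESAW.H7004 Fermat.Agent.S26.DIV.H2384
  Fermat.Agent.S26.CUBE3.H8423 Fermat.Agent.S26.CxT2925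

noncomputable section

variable {K : Type u} [Field K]

/-- The curve input `(C1) + (K3)` for `C × T` from the P12 / P13 exports and the dictionary of
the curve `C` (helper2925's `riemann_input` for every Cartier divisor: the fibre hypothesis of
that statement is not used by its proof). -/
theorem curveInput_of_dict [IsAlgClosed K] {C T : Scheme.{u}} (sC : C ⟶ Spec (CommRingCat.of K))
    (sT : T ⟶ Spec (CommRingCat.of K)) (hC : IsSmoothProperCurve sC)
    [IsIntegral C] [IsIntegral T] [Smooth sT] [IsProper sT] [IsIntegral (pullback sC sT)]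
    (htr : Algebra.trdeg K (FF sC) = 1) (hdict : CurveDict sC) :
    CurveInput sC sT := by
  have hsm1 : SmoothOfRelativeDimension 1 sC := hC.smooth
  have hsmC : Smooth sC := SmoothOfRelativeDimension.smooth 1 sC
  have hprop : IsProper sC := hC.proper
  have hsmX : Smooth (pullback.fst sC sT ≫ sC) := inferInstance
  have hess : Algebra.EssFiniteType K (FF sC) := essFiniteType_FF sC
  obtain ⟨-, -, γ, hR, E0, hE0, hdeg, hfin⟩ := exists_riemann_genus K (FF sC) htr
  obtain ⟨E, hE, hdiv, hL⟩ := hdict E0
  have hEL : ∀ h : (C.functionField)ˣ,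
      (∀ x : C, (h : C.functionField) * ((E x : (C.functionField)ˣ) : C.functionField) ∈
        localRing C x) → ∀ x : C, IsUnitAt x (h : C.functionField) := by
    intro h hh x
    obtain ⟨c, hc⟩ := eq_algebraMap_of_finrank_eq_one E0 hE0 hfin _ (hL h hh)
    have hc' : (h : C.functionField) = constHom sC c := hc
    rw [hc']
    exact isUnitAt_constHom sC c x
  refine ⟨E, hE,
    fun E' _ hE'eff hlin => same_of_effective_of_linEquiv_of_LE hEL E' hE'eff hlin, ?_⟩
  intro D hD
  have hopenC : IsOpenMap (pullback.fst sC sT) := (pullback.fst sC sT).isOpenMap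
  have hopenT : IsOpenMap (pullback.snd sC sT) := (pullback.snd sC sT).isOpenMap
  have hFF : CURVEK.IsFF1 K (FF sC) :=
    CURVEK.isFF1_of_trdeg_one (IntermediateField.fg_top K (FF sC)) htr
  obtain ⟨F, hF0⟩ := CURVEK.K3 sC sT (pullback.fst sC sT) (pullback.snd sC sT)
    (IsPullback.of_hasPullback sC sT) (map_genericPoint_of_isOpenMap _ hopenC)
    (map_genericPoint_of_isOpenMap _ hopenT)
    (fun x => stalk_isIntegrallyClosed_of_smooth (pullback.fst sC sT ≫ sC) x)
    hFF (γ : ℤ) hR E hE E0 hdiv hdeg.ge D hD
  refine ⟨F, ?_⟩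
  rcases hF0 with hF | hF
  · left
    intro ξ _ hξ
    have := hF ξ hξ
    have e : (((D * Fam.const F * Fam.pullback (pullback.fst sC sT) E) ξ :
        ((pullback sC sT).functionField)ˣ) : (pullback sC sT).functionField) =
        (F : (pullback sC sT).functionField) *
          ((D ξ : ((pullback sC sT).functionField)ˣ) : (pullback sC sT).functionField) *
          ((Fam.pullback (pullback.fst sC sT) E ξ : ((pullback sC sT).functionField)ˣ) :
            (pullback sC sT).functionField) := by
      show ((D ξ * F * Fam.pullback (pullback.fst sC sT) E ξ :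
        ((pullback sC sT).functionField)ˣ) : (pullback sC sT).functionField) = _
      rw [Units.val_mul, Units.val_mul, mul_comm (D ξ : (pullback sC sT).functionField)]
    rw [e]
    simpa only [Units.val_mul] using this
  · right
    intro ξ _ hξ
    have := hF ξ hξ
    have e : (((D⁻¹ * Fam.const F * Fam.pullback (pullback.fst sC sT) E) ξ :
        ((pullback sC sT).functionField)ˣ) : (pullback sC sT).functionField) =
        (F : (pullback sC sT).functionField) *
          (((D ξ)⁻¹ : ((pullback sC sT).functionField)ˣ) : (pullback sC sT).functionField) *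
          ((Fam.pullback (pullback.fst sC sT) E ξ : ((pullback sC sT).functionField)ˣ) :
            (pullback sC sT).functionField) := by
      show (((D ξ)⁻¹ * F * Fam.pullback (pullback.fst sC sT) E ξ :
        ((pullback sC sT).functionField)ˣ) : (pullback sC sT).functionField) = _
      rw [Units.val_mul, Units.val_mul,
        mul_comm (((D ξ)⁻¹ : ((pullback sC sT).functionField)ˣ) : (pullback sC sT).functionField)]
    rw [e]
    simpa only [Units.val_mul] using this

/-- The curve input `(C1) + (K3)` for `C × T`, `C` a smooth proper curve, `T` smooth proper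
integral: no hypothesis left. -/
theorem curveInput_final [IsAlgClosed K] {C T : Scheme.{u}} (sC : C ⟶ Spec (CommRingCat.of K))
    (sT : T ⟶ Spec (CommRingCat.of K)) (hC : IsSmoothProperCurve sC)
    [IsIntegral C] [IsIntegral T] [Smooth sT] [IsProper sT] [IsIntegral (pullback sC sT)] :
    CurveInput sC sT := by
  have hsm1 : SmoothOfRelativeDimension 1 sC := hC.smooth
  have hsmC : Smooth sC := SmoothOfRelativeDimension.smooth 1 sC
  have htr : Algebra.trdeg K (FF sC) = 1 := trdeg_FF_curve sC hC
  have hess : Algebra.EssFiniteType K (FF sC) := essFiniteType_FF sC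
  have hff1 : FF.IsFF1 K (FF sC) := FF.isFF1_of_essFiniteType_of_trdeg htr
  exact curveInput_of_dict sC sT hC htr
    (curveDict_of_completeCurve sC (isCompleteCurve_of_smoothProper sC hC htr hff1))

/-- **Cube for three curves**: the frozen P15 export `Fermat.Agent.S26.cube3_curves`, with exactly
the frozen signature. -/
theorem cube3_curves_final [IsAlgClosed K] {C C₂ C₃ : Scheme.{u}}
    (sC : C ⟶ Spec (CommRingCat.of K))
    (sC₂ : C₂ ⟶ Spec (CommRingCat.of K)) (sC₃ : C₃ ⟶ Spec (CommRingCat.of K))
    (hC : IsSmoothProperCurve sC) (hC₂ : IsSmoothProperCurve sC₂)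
    (hC₃ : IsSmoothProperCurve sC₃)
    [IsIntegral C] [IsIntegral C₂] [IsIntegral C₃]
    [IsIntegral (pullback sC₂ sC₃)] [IsIntegral (pullback sC sC₃)] [IsIntegral (pullback sC sC₂)]
    [IsIntegral (pullback sC (prodS sC₂ sC₃))]
    (c₀ : Pts sC) (y₀ : Pts sC₂) (z₀ : Pts sC₃) :
    CubeProp3 sC sC₂ sC₃ c₀ y₀ z₀ := by
  have hsm : Smooth (prodS sC₂ sC₃) := smooth_prodS sC₂ sC₃ hC₂ hC₃
  have hpr : IsProper (prodS sC₂ sC₃) := isProper_prodS sC₂ sC₃ hC₂ hC₃
  refine Fermat.Agent.S26.CUBE3.H1665.cube3_curves_of_slices sC sC₂ sC₃ hC hC₂ hC₃ c₀ y₀ z₀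
    (curveInput_final sC (prodS sC₂ sC₃) hC) ?_
  intro t _ x γ h1 h2 h3
  refine hslice_cube sC sC₂ sC₃ hC hC₂ hC₃ t x γ ?_ ?_ h3
  · rw [pt_sliceL]; exact h1
  · rw [pt_sliceL]; exact h2

end

end Fermat.Agent.S26.CUBE3.H2204
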