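import Fermat.Agent.S26.Defs

/-!
# S26 / CUBE3: rigidity of a divisor with `L(E) = K` (interface-free leaf, helper2963)

`same_of_linEquiv_of_forall_const`: if every element of `L(E)` is a constant, then an effective
family linearly equivalent to `E` defines the same divisor as `E`.  (Used in SEESAW and CUBE3 with
the non-special divisor `E` of degree `γ` on the curve `C`.)
Also: basic calculus of `IsUnitAt` and of `Fam.Same` / `Fam.LinEquiv` (pure group theory).
-/

set_option autoImplicit false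
set_option linter.unusedSimpArgs false

universe u

open CategoryTheory AlgebraicGeometry

namespace Fermat.Agent.S26.CUBE3.H2963

variable {K : Type u} [Field K]

section UnitAt

variable {X : Scheme.{u}} [IsIntegral X]

/-- `IsUnitAt` for units of the function field. -/
def UAt (x : X) (a : (X.functionField)ˣ) : Prop := IsUnitAt x (a : X.functionField)

theorem uAt_one (x : X) : UAt x (1 : (X.functionField)ˣ) :=
  ⟨by rw [Units.val_one]; exact Subring.one_mem _,
    by rw [Units.val_one, inv_one]; exact Subring.one_mem _⟩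

theorem uAt_mul {x : X} {a b : (X.functionField)ˣ} (ha : UAt x a) (hb : UAt x b) :
    UAt x (a * b) :=
  ⟨by rw [Units.val_mul]; exact Subring.mul_mem _ ha.1 hb.1,
    by rw [Units.val_mul, mul_inv]; exact Subring.mul_mem _ ha.2 hb.2⟩

theorem uAt_inv {x : X} {a : (X.functionField)ˣ} (ha : UAt x a) : UAt x a⁻¹ :=
  ⟨by rw [Units.val_inv_eq_inv_val]; exact ha.2,
    by rw [Units.val_inv_eq_inv_val, inv_inv]; exact ha.1⟩

theorem uAt_div {x : X} {a b : (X.functionField)ˣ} (ha : UAt x a) (hb : UAt x b) :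
    UAt x (a / b) := by
  rw [div_eq_mul_inv]; exact uAt_mul ha (uAt_inv hb)

theorem uAt_pow {x : X} {a : (X.functionField)ˣ} (ha : UAt x a) (k : ℕ) : UAt x (a ^ k) := by
  induction k with
  | zero => rw [pow_zero]; exact uAt_one x
  | succ k ih => rw [pow_succ]; exact uAt_mul ih ha

theorem uAt_congr {x : X} {a b : (X.functionField)ˣ} (h : a = b) (ha : UAt x a) : UAt x b :=
  h ▸ ha

/-- Nonzero constants are units at every point. -/
theorem isUnitAt_constHom (s : X ⟶ Spec (CommRingCat.of K)) (c : K) (x : X) (_hc : c ≠ 0) :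
    IsUnitAt x (constHom s c) := by
  refine ⟨constHom_mem_localRing s c x, ?_⟩
  rw [← map_inv₀]
  exact constHom_mem_localRing s c⁻¹ x

theorem same_iff {D D' : Fam X} : Fam.Same D D' ↔ ∀ x : X, UAt x (D x / D' x) := Iff.rfl

theorem linEquiv_iff {D D' : Fam X} :
    Fam.LinEquiv D D' ↔ ∃ f : (X.functionField)ˣ, ∀ x : X, UAt x (D x / (D' x * f)) := Iff.rfl

end UnitAt

section Same

variable {X : Scheme.{u}} [IsIntegral X]

theorem same_refl (D : Fam X) : Fam.Same D D := fun x =>
  uAt_congr (div_self' (D x)).symm (uAt_one x)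

theorem same_symm {D D' : Fam X} (h : Fam.Same D D') : Fam.Same D' D := fun x =>
  uAt_congr (inv_div (D x) (D' x)) (uAt_inv (h x))

theorem same_trans {D D' D'' : Fam X} (h : Fam.Same D D') (h' : Fam.Same D' D'') :
    Fam.Same D D'' := fun x =>
  uAt_congr (div_mul_div_cancel (D x) (D' x) (D'' x)) (uAt_mul (h x) (h' x))

theorem same_mul {D₁ D₁' D₂ D₂' : Fam X} (h₁ : Fam.Same D₁ D₁') (h₂ : Fam.Same D₂ D₂') :
    Fam.Same (D₁ * D₂) (D₁' * D₂') := fun x =>
  uAt_congr (div_mul_div_comm (D₁ x) (D₁' x) (D₂ x) (D₂' x)) (uAt_mul (h₁ x) (h₂ x))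

theorem same_inv {D D' : Fam X} (h : Fam.Same D D') : Fam.Same D⁻¹ D'⁻¹ := fun x =>
  uAt_congr (by simp [div_eq_mul_inv, mul_comm]) (uAt_inv (h x))

theorem same_pow {D D' : Fam X} (h : Fam.Same D D') (k : ℕ) : Fam.Same (D ^ k) (D' ^ k) :=
  fun x => uAt_congr (div_pow (D x) (D' x) k) (uAt_pow (h x) k)

theorem linEquiv_of_same {D D' : Fam X} (h : Fam.Same D D') : Fam.LinEquiv D D' :=
  ⟨1, fun x => uAt_congr (by simp [Fam.const]) (h x)⟩

theorem linEquiv_refl (D : Fam X) : Fam.LinEquiv D D := linEquiv_of_same (same_refl D)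

theorem linEquiv_symm {D D' : Fam X} (h : Fam.LinEquiv D D') : Fam.LinEquiv D' D := by
  obtain ⟨f, hf⟩ := h
  refine ⟨f⁻¹, fun x => uAt_congr ?_ (uAt_inv (hf x))⟩
  apply Units.ext
  simp only [Fam.const, Pi.mul_apply, Pi.inv_apply, Pi.pow_apply, Units.val_mul,
    Units.val_inv_eq_inv_val, Units.val_div_eq_div_val, Units.val_one]
  field_simp

theorem linEquiv_trans {D D' D'' : Fam X} (h : Fam.LinEquiv D D') (h' : Fam.LinEquiv D' D'') :
    Fam.LinEquiv D D'' := by
  obtain ⟨f, hf⟩ := h
  obtain ⟨f', hf'⟩ := h'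
  refine ⟨f' * f, fun x => uAt_congr ?_ (uAt_mul (hf x) (hf' x))⟩
  apply Units.ext
  simp only [Fam.const, Pi.mul_apply, Pi.inv_apply, Pi.pow_apply, Units.val_mul,
    Units.val_inv_eq_inv_val, Units.val_div_eq_div_val, Units.val_one]
  field_simp

theorem linEquiv_mul {D₁ D₁' D₂ D₂' : Fam X} (h₁ : Fam.LinEquiv D₁ D₁')
    (h₂ : Fam.LinEquiv D₂ D₂') : Fam.LinEquiv (D₁ * D₂) (D₁' * D₂') := by
  obtain ⟨f₁, hf₁⟩ := h₁
  obtain ⟨f₂, hf₂⟩ := h₂
  refine ⟨f₁ * f₂, fun x => uAt_congr ?_ (uAt_mul (hf₁ x) (hf₂ x))⟩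
  apply Units.ext
  simp only [Fam.const, Pi.mul_apply, Pi.inv_apply, Pi.pow_apply, Units.val_mul,
    Units.val_inv_eq_inv_val, Units.val_div_eq_div_val, Units.val_one]
  field_simp

theorem linEquiv_inv {D D' : Fam X} (h : Fam.LinEquiv D D') : Fam.LinEquiv D⁻¹ D'⁻¹ := by
  obtain ⟨f, hf⟩ := h
  refine ⟨f⁻¹, fun x => uAt_congr ?_ (uAt_inv (hf x))⟩
  apply Units.ext
  simp only [Fam.const, Pi.mul_apply, Pi.inv_apply, Pi.pow_apply, Units.val_mul,
    Units.val_inv_eq_inv_val, Units.val_div_eq_div_val, Units.val_one]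
  field_simp

/-- A principal divisor is linearly equivalent to zero. -/
theorem linEquiv_const_one (f : (X.functionField)ˣ) : Fam.LinEquiv (Fam.const f) (1 : Fam X) :=
  ⟨f, fun x => uAt_congr (by simp [Fam.const]) (uAt_one x)⟩

end Same

section Rigid

variable {X : Scheme.{u}} [IsIntegral X] (s : X ⟶ Spec (CommRingCat.of K))

/-- If `D'` is effective and `D' = E + div f`, then `f ∈ L(E)`. -/
theorem mem_LSpace_of_same_of_isEffective {E D' : Fam X} {f : (X.functionField)ˣ}
    (hD' : D'.IsEffective) (h : Fam.Same D' (E * Fam.const f)) :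
    ((f : X.functionField) : FF s) ∈ LSpace s E := by
  intro x
  show (f : X.functionField) * ((E x : (X.functionField)ˣ) : X.functionField) ∈ localRing X x
  have h1 : ((D' x / (E * Fam.const f) x : (X.functionField)ˣ) : X.functionField)⁻¹
      ∈ localRing X x := (h x).2
  have h2 : (f : X.functionField) * ((E x : (X.functionField)ˣ) : X.functionField)
      = ((D' x : (X.functionField)ˣ) : X.functionField)
        * ((D' x / (E * Fam.const f) x : (X.functionField)ˣ) : X.functionField)⁻¹ := by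
    rw [← Units.val_inv_eq_inv_val, ← Units.val_mul, ← Units.val_mul]
    congr 1
    simp [Fam.const, div_eq_mul_inv, mul_comm]
  rw [h2]
  exact Subring.mul_mem _ (hD' x) h1

/-- **E-rigidity.**  If every element of `L(E)` is a constant, then an effective family which is
linearly equivalent to `E` defines the same divisor as `E`. -/
theorem same_of_linEquiv_of_forall_const {E D' : Fam X}
    (hE : ∀ f ∈ LSpace s E, ∃ c : K, f = algebraMap K (FF s) c)
    (hD' : D'.IsEffective) (h : Fam.LinEquiv D' E) : Fam.Same D' E := by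
  obtain ⟨f, hf⟩ := h
  obtain ⟨c, hc⟩ := hE _ (mem_LSpace_of_same_of_isEffective s hD' hf)
  have hc' : (f : X.functionField) = constHom s c := hc
  have hc0 : c ≠ 0 := by
    rintro rfl
    rw [map_zero] at hc'
    exact f.ne_zero hc'
  have hfu : ∀ x : X, UAt x f := fun x => by
    show IsUnitAt x (f : X.functionField)
    rw [hc']; exact isUnitAt_constHom s c x hc0
  intro x
  refine uAt_congr ?_ (uAt_mul (hf x) (hfu x))
  apply Units.ext
  simp only [Fam.const, Pi.mul_apply, Pi.inv_apply, Pi.pow_apply, Units.val_mul,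
    Units.val_inv_eq_inv_val, Units.val_div_eq_div_val, Units.val_one]
  field_simp

end Rigid

end Fermat.Agent.S26.CUBE3.H2963
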